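import Mathlib
import Fermat.Agent.LT.T7.H568.IdeleCoordSpec

/-!
# Row LT, tower T7, leaf T7.14.6c.4e `HaarPosC568` (Mathlib only), helper627

OFF-MAIN.  `haarPosC627 : H568.HaarPosC568` VERBATIM against the byte-identical copy of
`LT/T7/H568/IdeleCoordSpec.lean` (helper568@fef45a303, sha256 `e8caee7a`).

Route: `ρ' = Log_* ρ` is a translation invariant measure on `ι → ℝ` which is finite on compact
sets, hence `c · volume` (`Measure.isAddLeftInvariant_eq_smul`); `ρ = Exp_* ρ'` and the change of
variables `r = Exp x` (`lintegral_image_eq_lintegral_abs_det_fderiv_mul`).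
-/

set_option autoImplicit false
set_option linter.unusedSectionVars false

open MeasureTheory Set
open scoped ENNReal NNReal

noncomputable section

namespace Fermat.Agent.LT.T7.H627

variable {ι : Type} [Fintype ι]

/-- Coordinatewise exponential. -/
def expV627 (x : ι → ℝ) : ι → ℝ := fun i => Real.exp (x i)

/-- Coordinatewise logarithm. -/
def logV627 (r : ι → ℝ) : ι → ℝ := fun i => Real.log (r i)

theorem measurable_expV627 : Measurable (expV627 (ι := ι)) :=
  measurable_pi_lambda _ fun i => Real.measurable_exp.comp (measurable_pi_apply i)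

theorem measurable_logV627 : Measurable (logV627 (ι := ι)) :=
  measurable_pi_lambda _ fun i => Real.measurable_log.comp (measurable_pi_apply i)

theorem logV_expV627 (x : ι → ℝ) : logV627 (expV627 x) = x :=
  funext fun i => Real.log_exp (x i)

theorem expV_logV627 {r : ι → ℝ} (hr : ∀ i, 0 < r i) : expV627 (logV627 r) = r :=
  funext fun i => Real.exp_log (hr i)

theorem expV_injective627 : Function.Injective (expV627 (ι := ι)) := fun x y h => by
  rw [← logV_expV627 x, ← logV_expV627 y, h]

theorem range_expV627 : range (expV627 (ι := ι)) = {r | ∀ i, 0 < r i} := by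
  ext r
  constructor
  · rintro ⟨x, rfl⟩ i
    exact Real.exp_pos _
  · intro hr
    exact ⟨logV627 r, expV_logV627 hr⟩

/-- The derivative of the coordinatewise exponential. -/
def dExpV627 (x : ι → ℝ) : (ι → ℝ) →L[ℝ] (ι → ℝ) :=
  ContinuousLinearMap.pi fun i => Real.exp (x i) • ContinuousLinearMap.proj i

theorem hasFDerivAt_expV627 (x : ι → ℝ) : HasFDerivAt (expV627 (ι := ι)) (dExpV627 x) x := by
  unfold expV627 dExpV627
  rw [hasFDerivAt_pi]
  intro i
  have h1 : HasFDerivAt (fun f : ι → ℝ => f i)
      (ContinuousLinearMap.proj (R := ℝ) (φ := fun _ : ι => ℝ) i) x :=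
    hasFDerivAt_apply (𝕜 := ℝ) i x
  exact (Real.hasDerivAt_exp (x i)).comp_hasFDerivAt x h1

theorem det_dExpV627 (x : ι → ℝ) : (dExpV627 x).det = ∏ i, Real.exp (x i) := by
  classical
  have h : ((dExpV627 x : (ι → ℝ) →L[ℝ] (ι → ℝ)) : (ι → ℝ) →ₗ[ℝ] (ι → ℝ))
      = Matrix.toLin' (Matrix.diagonal fun i => Real.exp (x i)) := by
    refine LinearMap.ext fun v => funext fun i => ?_
    rw [Matrix.toLin'_apply, Matrix.mulVec_diagonal]
    rfl
  rw [ContinuousLinearMap.det, h, LinearMap.det_toLin', Matrix.det_diagonal]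

/-- The change of variables `r = Exp x`. -/
theorem lintegral_expV627 (h : (ι → ℝ) → ℝ≥0∞) :
    ∫⁻ x, h (expV627 x)
      = ∫⁻ r in {r : ι → ℝ | ∀ i, 0 < r i}, h r * ENNReal.ofReal (∏ i, r i)⁻¹ := by
  have key := lintegral_image_eq_lintegral_abs_det_fderiv_mul (volume : Measure (ι → ℝ))
    (s := univ) (f := expV627) (f' := dExpV627) MeasurableSet.univ
    (fun x _ => (hasFDerivAt_expV627 x).hasFDerivWithinAt)
    (expV_injective627.injOn) (fun r => h r * ENNReal.ofReal (∏ i, r i)⁻¹)
  rw [image_univ, range_expV627] at key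
  rw [key, Measure.restrict_univ]
  refine lintegral_congr fun x => ?_
  have hpos : 0 < ∏ i, Real.exp (x i) := Finset.prod_pos fun i _ => Real.exp_pos _
  rw [det_dExpV627, abs_of_pos hpos]
  have e : ∏ i, expV627 x i = ∏ i, Real.exp (x i) := rfl
  rw [e, mul_comm, mul_assoc, ← ENNReal.ofReal_mul (inv_nonneg.mpr hpos.le),
    inv_mul_cancel₀ hpos.ne', ENNReal.ofReal_one, mul_one]

theorem measurable_scale627 (t : ι → ℝ) : Measurable fun (r : ι → ℝ) (i : ι) => t i * r i :=
  measurable_pi_lambda _ fun i =>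
    Measurable.const_mul (f := fun r : ι → ℝ => r i) (measurable_pi_apply i) (t i)

/-- **T7.14.6c.4e `HaarPosC568`**, VERBATIM. -/
theorem haarPosC627 : Fermat.Agent.LT.T7.H568.HaarPosC568 := by
  intro ι _ ρ hsupp hinv hfin hne
  have hae : ∀ᵐ r ∂ρ, ∀ i, 0 < r i := by
    rw [ae_iff]
    exact hsupp
  -- the measure in logarithmic coordinates
  have hinv' : (ρ.map logV627).IsAddLeftInvariant := by
    refine ⟨fun a => ?_⟩
    have ht : ∀ i, 0 < expV627 a i := fun i => Real.exp_pos _
    have h1 := hinv (expV627 a) ht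
    have h2 : (fun x : ι → ℝ => a + x) ∘ logV627
        =ᵐ[ρ] logV627 ∘ fun (r : ι → ℝ) (i : ι) => expV627 a i * r i := by
      filter_upwards [hae] with r hr
      funext i
      show a i + Real.log (r i) = Real.log (Real.exp (a i) * r i)
      rw [Real.log_mul (Real.exp_pos _).ne' (hr i).ne', Real.log_exp]
    calc Measure.map (fun x => a + x) (ρ.map logV627)
        = ρ.map ((fun x : ι → ℝ => a + x) ∘ logV627) :=
          Measure.map_map (measurable_const_add a) measurable_logV627
      _ = ρ.map (logV627 ∘ fun (r : ι → ℝ) (i : ι) => expV627 a i * r i) :=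
          Measure.map_congr h2
      _ = (ρ.map fun (r : ι → ℝ) (i : ι) => expV627 a i * r i).map logV627 :=
          (Measure.map_map measurable_logV627 (measurable_scale627 _)).symm
      _ = ρ.map logV627 := by rw [h1]
  have hfc : IsFiniteMeasureOnCompacts (ρ.map logV627) := by
    refine ⟨fun C hC => ?_⟩
    obtain ⟨n, hn0, hn⟩ := hC.isBounded.subset_closedBall_lt 0 (0 : ι → ℝ)
    have hsub : logV627 ⁻¹' Metric.closedBall (0 : ι → ℝ) n
        ⊆ {r : ι → ℝ | ∀ i, Real.exp (-n) ≤ r i ∧ r i ≤ Real.exp n}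
          ∪ {r | ¬ ∀ i, 0 < r i} := by
      intro r hr
      by_cases hpos : ∀ i, 0 < r i
      · left
        intro i
        have h1 : ‖logV627 r‖ ≤ n := by
          have := hr
          rwa [mem_preimage, mem_closedBall_zero_iff] at this
        have h2 : ‖logV627 r i‖ ≤ n := (norm_le_pi_norm (logV627 r) i).trans h1
        rw [Real.norm_eq_abs, abs_le] at h2
        constructor
        · rw [← Real.le_log_iff_exp_le (hpos i)]
          exact h2.1
        · rw [← Real.log_le_iff_le_exp (hpos i)]
          exact h2.2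
      · right
        exact hpos
    calc (ρ.map logV627) C ≤ (ρ.map logV627) (Metric.closedBall 0 n) := measure_mono hn
      _ = ρ (logV627 ⁻¹' Metric.closedBall 0 n) :=
          Measure.map_apply measurable_logV627 Metric.isClosed_closedBall.measurableSet
      _ ≤ ρ ({r : ι → ℝ | ∀ i, Real.exp (-n) ≤ r i ∧ r i ≤ Real.exp n}
            ∪ {r | ¬ ∀ i, 0 < r i}) := measure_mono hsub
      _ ≤ ρ {r : ι → ℝ | ∀ i, Real.exp (-n) ≤ r i ∧ r i ≤ Real.exp n}
            + ρ {r | ¬ ∀ i, 0 < r i} := measure_union_le _ _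
      _ < ⊤ := by
          rw [hsupp, add_zero]
          exact hfin _ _ (Real.exp_pos _) (Real.exp_le_exp.mpr (by linarith))
  have hsmul : ρ.map logV627
      = Measure.addHaarScalarFactor (ρ.map logV627) (volume : Measure (ι → ℝ)) •
          (volume : Measure (ι → ℝ)) :=
    Measure.isAddLeftInvariant_eq_smul _ _
  set c : ℝ≥0 := Measure.addHaarScalarFactor (ρ.map logV627) (volume : Measure (ι → ℝ))
    with hc
  have hback : ρ = (ρ.map logV627).map expV627 := by
    rw [Measure.map_map measurable_expV627 measurable_logV627]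
    have h3 : expV627 ∘ logV627 =ᵐ[ρ] (id : (ι → ℝ) → (ι → ℝ)) := by
      filter_upwards [hae] with r hr
      exact expV_logV627 hr
    rw [Measure.map_congr h3, Measure.map_id]
  have hc0 : c ≠ 0 := by
    intro h0
    apply hne
    rw [hback, hsmul, h0, zero_smul, Measure.map_zero]
  refine ⟨(c : ℝ), by
    have : (0 : ℝ≥0) < c := pos_iff_ne_zero.mpr hc0
    exact_mod_cast this, fun h hh => ?_⟩
  have e1 : ∫⁻ r, h r ∂ρ = ∫⁻ x, h (expV627 x) ∂(ρ.map logV627) := by
    conv_lhs => rw [hback]
    exact lintegral_map hh measurable_expV627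
  rw [e1, hsmul, lintegral_smul_measure, lintegral_expV627, ENNReal.ofReal_coe_nnreal,
    ENNReal.smul_def, smul_eq_mul]

end Fermat.Agent.LT.T7.H627

end
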