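import Mathlib
import Fermat.Agent.LT.T7.H568.IdeleCoordSpec
import Fermat.Agent.LT.T2.H627.Adelic

/-!
# Row LT, tower T7, leaf T7.14.6c.4d `ScaleC568`, helper627 (spare)

OFF-MAIN.  `scaleC627 K : H568.ScaleC568 K` VERBATIM against the byte-identical copy of
`LT/T7/H568/IdeleCoordSpec.lean` (helper568@fef45a303, sha256 `e8caee7a`).  The idele is
`infIdele627 t` (`LT/T2/H627/Adelic.lean`): `t_w` at the infinite places, `1` at the finite ones.
-/

set_option autoImplicit false
set_option linter.unusedSectionVars false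

open IsDedekindDomain NumberField
open Fermat.Agent.LT.H556.A0

noncomputable section

namespace Fermat.Agent.LT.T7.H627

open Fermat.Agent.LT.T7 Fermat.Agent.LT.T7.Rigid Fermat.Agent.LT.T7.H568
open Fermat.Agent.LT.T2.H627

variable {K : Type} [Field K] [NumberField K]

theorem infIdele_mul_snd627 (t : InfinitePlace K → ℝ) (ht : ∀ w, t w ≠ 0) (y : (Adl K)ˣ)
    (v : HeightOneSpectrum (𝓞 K)) :
    (((infIdele627 t ht * y : (Adl K)ˣ) : Adl K)).2 v = (y : Adl K).2 v := by
  rw [Units.val_mul, infIdele627_val]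
  show ((1 : FiniteAdeleRing (𝓞 K) K) * (y : Adl K).2) v = (y : Adl K).2 v
  rw [one_mul]

theorem infIdele_mul_fst627 (t : InfinitePlace K → ℝ) (ht : ∀ w, t w ≠ 0) (y : (Adl K)ˣ)
    (w : InfinitePlace K) :
    (((infIdele627 t ht * y : (Adl K)ˣ) : Adl K)).1 w = eR627 w (t w) * (y : Adl K).1 w := by
  rw [Units.val_mul, infIdele627_val]
  rfl

/-- **T7.14.6c.4d `ScaleC568`**, VERBATIM (`TotCplx` is not used). -/
theorem scaleC627 (K : Type) [Field K] [NumberField K] : ScaleC568 K := by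
  intro _ t ht
  have ht' : ∀ w, t w ≠ 0 := fun w => (ht w).ne'
  refine ⟨infIdele627 t ht', fun y => ⟨?_, fun S 𝔪 => ?_⟩⟩
  · funext w
    show ‖(((infIdele627 t ht' * y : (Adl K)ˣ) : Adl K)).1 w‖ = t w * ‖(y : Adl K).1 w‖
    rw [infIdele_mul_fst627, norm_mul, norm_eR627, abs_of_pos (ht w)]
  · have hI : InCell S 𝔪 1 (infIdele627 t ht' * y) ↔ InCell S 𝔪 1 y := by
      unfold InCell
      simp only [infIdele_mul_snd627]
    have hO : ∀ v : HeightOneSpectrum (𝓞 K),
        ordI v (infIdele627 t ht' * y) = ordI v y := by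
      intro v
      unfold ordI
      rw [infIdele_mul_snd627]
    unfold hSub568
    simp only [Set.mem_ofPred_eq, hI, hO]

end Fermat.Agent.LT.T7.H627

end
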