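import Mathlib
import Fermat.Agent.LT.T7.H568.IdeleCoordSpec

/-!
# Row LT, tower T7, leaf T7.14.6c.4f `TonelliSumC568` (Mathlib only), helper627 (spare)

OFF-MAIN.  `tonelliSumC627 : H568.TonelliSumC568` VERBATIM against the byte-identical copy of
`LT/T7/H568/IdeleCoordSpec.lean` (helper568@fef45a303, sha256 `e8caee7a`).

The integrand is the pointwise sum of its pieces `F_a`; `integral_tsum` in the convergent case;
in the divergent case the integrand is not integrable and the series is not summable, so both
sides are the junk value `0`.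
-/

set_option autoImplicit false
set_option linter.unusedSectionVars false

open MeasureTheory Set
open scoped ENNReal NNReal

noncomputable section

namespace Fermat.Agent.LT.T7.H627

open Classical in
/-- **T7.14.6c.4f `TonelliSumC568`**, VERBATIM. -/
theorem tonelliSumC627 : Fermat.Agent.LT.T7.H568.TonelliSumC568 := by
  intro X R A _ _ _ τ ν φ ind E P κ hκ hφ hEm hpush b g hgm hg0 hgi hb
  -- the pieces
  set F : A → X → ℂ := fun a x =>
    if x ∈ E ∧ ind x = a then b a * ((g (φ x) a : ℝ) : ℂ) else 0 with hF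
  set I : A → ℝ := fun a => ∫ r, g r a ∂ν with hI
  have hI0 : ∀ a, 0 ≤ I a := fun a => integral_nonneg fun r => hg0 r a
  -- the integrand is the sum of the pieces
  have hsum : ∀ x, (if x ∈ E then b (ind x) * ((g (φ x) (ind x) : ℝ) : ℂ) else 0)
      = ∑' a, F a x := by
    intro x
    rw [tsum_eq_single (ind x)]
    · by_cases hx : x ∈ E
      · simp [hF, hx]
      · simp [hF, hx]
    · intro a ha
      have : ¬ (x ∈ E ∧ ind x = a) := fun h => ha h.2.symm
      simp [hF, this]
  have hnorm : ∀ x, ‖(if x ∈ E then b (ind x) * ((g (φ x) (ind x) : ℝ) : ℂ) else 0)‖ₑ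
      = ∑' a, ‖F a x‖ₑ := by
    intro x
    rw [tsum_eq_single (ind x)]
    · by_cases hx : x ∈ E
      · simp [hF, hx]
      · simp [hF, hx]
    · intro a ha
      have : ¬ (x ∈ E ∧ ind x = a) := fun h => ha h.2.symm
      simp [hF, this]
  -- measurability of the pieces
  have hFm : ∀ a, Measurable (F a) := by
    intro a
    by_cases hP : P a
    · have h1 : Measurable fun x => b a * ((g (φ x) a : ℝ) : ℂ) :=
        measurable_const.mul (Complex.measurable_ofReal.comp ((hgm a).comp hφ))
      exact Measurable.ite (hEm a hP) h1 measurable_const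
    · have h0 : F a = fun _ => 0 := by
        funext x
        simp [hF, hb a hP]
      rw [h0]
      exact measurable_const
  -- the two integrals of a piece
  have hpiece_l : ∀ a, ∫⁻ x, ‖F a x‖ₑ ∂τ = ‖b a‖ₑ * (ENNReal.ofReal κ * ENNReal.ofReal (I a)) := by
    intro a
    by_cases hP : P a
    · have e1 : ∀ x, ‖F a x‖ₑ
          = ({x | x ∈ E ∧ ind x = a}).indicator
              (fun x => ‖b a‖ₑ * ENNReal.ofReal (g (φ x) a)) x := by
        intro x
        by_cases hx : x ∈ E ∧ ind x = a
        · rw [indicator_of_mem (show x ∈ {x | x ∈ E ∧ ind x = a} from hx)]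
          simp only [hF, if_pos hx, enorm_mul]
          congr 1
          rw [← ofReal_norm, Complex.norm_real, Real.norm_eq_abs,
            abs_of_nonneg (hg0 _ _)]
        · rw [indicator_of_notMem (show x ∉ {x | x ∈ E ∧ ind x = a} from hx)]
          simp [hF, hx]
      simp_rw [e1]
      have e2 : ∫⁻ x in {x | x ∈ E ∧ ind x = a}, ‖b a‖ₑ * ENNReal.ofReal (g (φ x) a) ∂τ
          = ‖b a‖ₑ * ∫⁻ x in {x | x ∈ E ∧ ind x = a}, ENNReal.ofReal (g (φ x) a) ∂τ :=
        lintegral_const_mul _ (show Measurable fun x => ENNReal.ofReal (g (φ x) a) from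
          ENNReal.measurable_ofReal.comp ((hgm a).comp hφ))
      rw [lintegral_indicator (hEm a hP), e2,
        hpush a hP (fun r => ENNReal.ofReal (g r a)) (ENNReal.measurable_ofReal.comp (hgm a)),
        ← ofReal_integral_eq_lintegral_ofReal (hgi a hP)
          (Filter.Eventually.of_forall fun r => hg0 r a)]
    · have h0 : ∀ x, ‖F a x‖ₑ = 0 := fun x => by simp [hF, hb a hP]
      simp_rw [h0]
      rw [lintegral_zero, hb a hP, enorm_zero, zero_mul]
  have hpiece : ∀ a, ∫ x, F a x ∂τ = b a * (((κ * I a : ℝ)) : ℂ) := by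
    intro a
    by_cases hP : P a
    · have e1 : F a = ({x | x ∈ E ∧ ind x = a}).indicator
          (fun x => b a * ((g (φ x) a : ℝ) : ℂ)) := by
        funext x
        by_cases hx : x ∈ E ∧ ind x = a
        · rw [indicator_of_mem (show x ∈ {x | x ∈ E ∧ ind x = a} from hx)]
          simp only [hF, if_pos hx]
        · rw [indicator_of_notMem (show x ∉ {x | x ∈ E ∧ ind x = a} from hx)]
          simp only [hF, if_neg hx]
      rw [e1, integral_indicator (hEm a hP), integral_const_mul, integral_complex_ofReal]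
      congr 2
      rw [integral_eq_lintegral_of_nonneg_ae (Filter.Eventually.of_forall fun x => hg0 _ _)
        ((hgm a).comp hφ).aestronglyMeasurable,
        hpush a hP (fun r => ENNReal.ofReal (g r a)) (ENNReal.measurable_ofReal.comp (hgm a)),
        ← ofReal_integral_eq_lintegral_ofReal (hgi a hP)
          (Filter.Eventually.of_forall fun r => hg0 r a),
        ← ENNReal.ofReal_mul hκ.le, ENNReal.toReal_ofReal (mul_nonneg hκ.le (hI0 a))]
    · have h0 : F a = fun _ => 0 := by
        funext x
        simp [hF, hb a hP]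
      rw [h0, integral_zero, hb a hP, zero_mul]
  simp_rw [hsum]
  by_cases hfin : ∑' a, ∫⁻ x, ‖F a x‖ₑ ∂τ = ⊤
  · -- both sides are junk
    have hni : ¬ Integrable (fun x => ∑' a, F a x) τ := by
      intro hint
      have h1 := hint.2
      rw [HasFiniteIntegral] at h1
      have h2 : ∫⁻ x, ‖∑' a, F a x‖ₑ ∂τ = ∑' a, ∫⁻ x, ‖F a x‖ₑ ∂τ := by
        simp_rw [← hsum, hnorm]
        exact lintegral_tsum fun a => (hFm a).enorm.aemeasurable
      rw [h2, hfin] at h1
      exact lt_irrefl _ h1
    have hns : ¬ Summable fun a => b a * ((I a : ℝ) : ℂ) := by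
      intro hs
      have hs' : Summable fun a => ‖b a * ((I a : ℝ) : ℂ)‖ := hs.norm
      have h1 : ∑' a, ENNReal.ofReal ‖b a * ((I a : ℝ) : ℂ)‖ ≠ ⊤ := by
        rw [← ENNReal.ofReal_tsum_of_nonneg (fun a => norm_nonneg _) hs']
        exact ENNReal.ofReal_ne_top
      have h2 : ∀ a, ∫⁻ x, ‖F a x‖ₑ ∂τ
          = ENNReal.ofReal κ * ENNReal.ofReal ‖b a * ((I a : ℝ) : ℂ)‖ := by
        intro a
        rw [hpiece_l a, norm_mul, Complex.norm_real, Real.norm_eq_abs, abs_of_nonneg (hI0 a),
          ENNReal.ofReal_mul (norm_nonneg _), ofReal_norm]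
        ring
      simp_rw [h2] at hfin
      rw [ENNReal.tsum_mul_left] at hfin
      exact ENNReal.mul_ne_top ENNReal.ofReal_ne_top h1 hfin
    rw [integral_undef hni, tsum_eq_zero_of_not_summable hns, mul_zero]
  · rw [integral_tsum (fun a => (hFm a).aestronglyMeasurable) hfin]
    simp_rw [hpiece]
    rw [← tsum_mul_left]
    refine tsum_congr fun a => ?_
    push_cast
    ring

end Fermat.Agent.LT.T7.H627

end
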