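import Mathlib
import Fermat.Agent.LT.T7.H62.RigidStrip

/-!
# Row LT, tower T7, leaf T7.14.6d `WeightC` (registry rows 1721 / 1751), helper627 (spare)

OFF-MAIN.  `weightC627 K : Rigid.WeightC K` VERBATIM against the byte-identical copy of
`LT/T7/H62/RigidStrip.lean` (helper62@3eb009f31, sha256 `9f2a8c04`), for EVERY number field.

Route (no logarithms, no Fubini):
1. `K₀(t) ≤ 4 (t/4)^{-1/4} e^{-t/2}`, `K₀` is positive and antitone on `(0, ∞)`, measurable;
2. on the region `∏ r_w² ≥ T` the integrand `∏ K₀(c_w r_w)² / r_w` is bounded by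
   `(√T)^{-(2k+1)} ∏_w r_w^{2k} K₀(c_w r_w)²`, a product of integrable functions of one variable;
3. `k = 0`: integrability and `G(T) ≤ C T^{-1/2}`; `k = 1`: `G(T) ≤ C T^{-3/2}`.
-/

set_option autoImplicit false
set_option linter.unusedSectionVars false

open IsDedekindDomain NumberField MeasureTheory Set
open scoped ENNReal

noncomputable section

namespace Fermat.Agent.LT.T7.H627

open Fermat.Agent.LT.T7 Fermat.Agent.LT.T7.Rigid

/-! ## 1. The Bessel function `K₀` -/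

theorem half_exp_le_cosh627 (u : ℝ) : Real.exp u / 2 ≤ Real.cosh u := by
  rw [Real.cosh_eq]
  have := (Real.exp_pos (-u)).le
  linarith

theorem integrableOn_k0_627 {t : ℝ} (ht : 0 < t) :
    IntegrableOn (fun u : ℝ => Real.exp (-t * Real.cosh u)) (Ioi 0) := by
  have h1 : IntegrableOn (fun u : ℝ => Real.exp ((-t / 2) * u)) (Ioi 0) :=
    integrableOn_exp_mul_Ioi (by linarith) 0
  refine Integrable.mono' h1 (by fun_prop) ?_
  refine (ae_restrict_iff' measurableSet_Ioi).mpr (Filter.Eventually.of_forall fun u hu => ?_)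
  rw [Real.norm_eq_abs, abs_of_pos (Real.exp_pos _)]
  refine Real.exp_le_exp.mpr ?_
  have h2 := half_exp_le_cosh627 u
  have h3 := Real.add_one_le_exp u
  have hu' : (0 : ℝ) < u := hu
  nlinarith

theorem besselK0_nonneg627 (t : ℝ) : 0 ≤ besselK0 t :=
  setIntegral_nonneg measurableSet_Ioi fun _ _ => (Real.exp_pos _).le

theorem besselK0_anti627 : AntitoneOn besselK0 (Ioi 0) := by
  intro s hs t ht hst
  refine setIntegral_mono_on (integrableOn_k0_627 ht) (integrableOn_k0_627 hs) measurableSet_Ioi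
    fun u _ => Real.exp_le_exp.mpr ?_
  have := Real.one_le_cosh u
  nlinarith

theorem besselK0_pos627 {t : ℝ} (ht : 0 < t) : 0 < besselK0 t := by
  have h1 : ∫ u in Ioc (0 : ℝ) 1, Real.exp (-t * Real.cosh u) ≤ besselK0 t :=
    setIntegral_mono_set (integrableOn_k0_627 ht)
      (Filter.Eventually.of_forall fun _ => (Real.exp_pos _).le)
      (Filter.Eventually.of_forall Ioc_subset_Ioi_self)
  have h2 : Real.exp (-t * Real.cosh 1) * (volume.real (Ioc (0 : ℝ) 1))
      ≤ ∫ u in Ioc (0 : ℝ) 1, Real.exp (-t * Real.cosh u) := by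
    refine setIntegral_ge_of_const_le_real measurableSet_Ioc (by simp) (fun u hu => ?_)
      ((integrableOn_k0_627 ht).mono_set Ioc_subset_Ioi_self)
    refine Real.exp_le_exp.mpr ?_
    have h3 : Real.cosh u ≤ Real.cosh 1 := by
      rw [Real.cosh_le_cosh, abs_of_pos hu.1, abs_of_pos one_pos]
      exact hu.2
    nlinarith
  have h3 : volume.real (Ioc (0 : ℝ) 1) = 1 := by simp [Measure.real]
  rw [h3, mul_one] at h2
  exact lt_of_lt_of_le (Real.exp_pos _) (h2.trans h1)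

theorem measurable_besselK0_627 : Measurable besselK0 := by
  have h : StronglyMeasurable (Function.uncurry fun (t : ℝ) (u : ℝ) =>
      Real.exp (-t * Real.cosh u)) := by
    apply Continuous.stronglyMeasurable
    fun_prop
  exact (h.integral_prod_right (ν := volume.restrict (Ioi (0 : ℝ)))).measurable

/-! ## 2. The power bound -/

theorem exp_neg_le_rpow627 {x : ℝ} (hx : 0 < x) : Real.exp (-x) ≤ x ^ (-(1 / 4) : ℝ) := by
  rw [Real.rpow_neg hx.le, Real.exp_neg]
  refine inv_anti₀ (Real.rpow_pos_of_pos hx _) ?_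
  have h1 : x ^ ((1 : ℝ) / 4) ≤ x + 1 := by
    rcases le_or_gt x 1 with h | h
    · have := Real.rpow_le_one hx.le h (by norm_num : (0 : ℝ) ≤ 1 / 4)
      linarith
    · have := Real.rpow_le_rpow_of_exponent_le h.le (by norm_num : (1 : ℝ) / 4 ≤ 1)
      rw [Real.rpow_one] at this
      linarith
  exact h1.trans (Real.add_one_le_exp x)

/-- The constant of the power bound. -/
def cK627 : ℝ := 4 * (4 : ℝ) ^ ((1 : ℝ) / 4)

theorem cK627_pos : 0 < cK627 := by
  unfold cK627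
  positivity

theorem k0_pointwise627 {t : ℝ} (ht : 0 < t) (u : ℝ) :
    Real.exp (-t * Real.cosh u)
      ≤ Real.exp (-t / 2) * (t ^ (-(1 / 4) : ℝ) * (4 : ℝ) ^ ((1 : ℝ) / 4))
          * Real.exp ((-1 / 4) * u) := by
  have hc1 := Real.one_le_cosh u
  have hc2 := half_exp_le_cosh627 u
  have hx0 : 0 < t / 4 * Real.exp u := by positivity
  have e1 : -t * Real.cosh u = (-t / 2) * Real.cosh u + -(t / 2 * Real.cosh u) := by ring
  have h1 : Real.exp ((-t / 2) * Real.cosh u) ≤ Real.exp (-t / 2) :=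
    Real.exp_le_exp.mpr (by nlinarith)
  have h2 : Real.exp (-(t / 2 * Real.cosh u)) ≤ Real.exp (-(t / 4 * Real.exp u)) :=
    Real.exp_le_exp.mpr (by nlinarith)
  have h3 := exp_neg_le_rpow627 hx0
  have h4 : (t / 4 * Real.exp u) ^ (-(1 / 4) : ℝ)
      = (t ^ (-(1 / 4) : ℝ) * (4 : ℝ) ^ ((1 : ℝ) / 4)) * Real.exp ((-1 / 4) * u) := by
    rw [Real.mul_rpow (by positivity) (Real.exp_pos u).le, Real.div_rpow ht.le (by norm_num),
      ← Real.exp_mul, Real.rpow_neg (by norm_num : (0 : ℝ) ≤ 4), div_eq_mul_inv, inv_inv]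
    congr 2
    ring
  rw [e1, Real.exp_add, mul_assoc]
  refine mul_le_mul h1 ?_ (Real.exp_pos _).le (Real.exp_pos _).le
  rw [← h4]
  exact h2.trans h3

theorem besselK0_le627 {t : ℝ} (ht : 0 < t) :
    besselK0 t ≤ cK627 * (t ^ (-(1 / 4) : ℝ) * Real.exp (-t / 2)) := by
  have hint : IntegrableOn (fun u : ℝ => Real.exp ((-1 / 4) * u)) (Ioi 0) :=
    integrableOn_exp_mul_Ioi (by norm_num) 0
  have h1 : besselK0 t ≤ ∫ u in Ioi (0 : ℝ),
      Real.exp (-t / 2) * (t ^ (-(1 / 4) : ℝ) * (4 : ℝ) ^ ((1 : ℝ) / 4))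
          * Real.exp ((-1 / 4) * u) :=
    setIntegral_mono_on (integrableOn_k0_627 ht) (hint.const_mul _) measurableSet_Ioi
      fun u _ => k0_pointwise627 ht u
  have h2 : ∫ u in Ioi (0 : ℝ), Real.exp ((-1 / 4) * u) = 4 := by
    rw [integral_exp_mul_Ioi (by norm_num) 0]
    norm_num
  rw [integral_const_mul, h2] at h1
  refine h1.trans (le_of_eq ?_)
  unfold cK627
  ring

theorem besselK0_sq_le627 {t : ℝ} (ht : 0 < t) :
    besselK0 t ^ 2 ≤ cK627 ^ 2 * (Real.exp (-t) * t ^ ((1 / 2 : ℝ) - 1)) := by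
  have h0 := besselK0_nonneg627 t
  have h1 := besselK0_le627 ht
  have h2 : besselK0 t ^ 2 ≤ (cK627 * (t ^ (-(1 / 4) : ℝ) * Real.exp (-t / 2))) ^ 2 :=
    pow_le_pow_left₀ h0 h1 2
  refine h2.trans (le_of_eq ?_)
  have e1 : (t ^ (-(1 / 4) : ℝ)) ^ 2 = t ^ ((1 / 2 : ℝ) - 1) := by
    rw [← Real.rpow_natCast, ← Real.rpow_mul ht.le]
    norm_num
  have e2 : Real.exp (-t / 2) ^ 2 = Real.exp (-t) := by
    rw [sq, ← Real.exp_add]
    ring_nf
  rw [mul_pow, mul_pow, e1, e2]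
  ring

/-- The one-variable majorants are integrable. -/
theorem integrableOn_pow_k0_627 {c : ℝ} (hc : 0 < c) (k : ℕ) :
    IntegrableOn (fun x : ℝ => x ^ (2 * k) * besselK0 (c * x) ^ 2) (Ioi 0) := by
  have hs : (0 : ℝ) < 2 * k + 1 / 2 := by positivity
  have hγ : IntegrableOn (fun y : ℝ => Real.exp (-y) * y ^ ((2 * k + 1 / 2 : ℝ) - 1)) (Ioi 0) :=
    Real.GammaIntegral_convergent hs
  have hγ' : IntegrableOn
      (fun x : ℝ => Real.exp (-(c * x)) * (c * x) ^ ((2 * k + 1 / 2 : ℝ) - 1)) (Ioi 0) := by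
    have := (integrableOn_Ioi_comp_mul_left_iff
      (fun y : ℝ => Real.exp (-y) * y ^ ((2 * k + 1 / 2 : ℝ) - 1)) 0 hc).mpr
      (by rwa [mul_zero])
    exact this
  have hmeas : Measurable (fun x : ℝ => x ^ (2 * k) * besselK0 (c * x) ^ 2) :=
    (measurable_id.pow_const _).mul
      ((measurable_besselK0_627.comp (measurable_const_mul c)).pow_const 2)
  refine Integrable.mono' (hγ'.const_mul (cK627 ^ 2 * (c ^ (2 * k))⁻¹))
    hmeas.aestronglyMeasurable ?_
  refine (ae_restrict_iff' measurableSet_Ioi).mpr (Filter.Eventually.of_forall fun x hx => ?_)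
  have hx' : (0 : ℝ) < x := hx
  have hcx : 0 < c * x := mul_pos hc hx'
  have h1 := besselK0_sq_le627 hcx
  have h0 : 0 ≤ x ^ (2 * k) * besselK0 (c * x) ^ 2 := by positivity
  rw [Real.norm_eq_abs, abs_of_nonneg h0]
  have e : (c * x) ^ ((2 * k + 1 / 2 : ℝ) - 1)
      = (c * x) ^ (2 * k) * (c * x) ^ ((1 / 2 : ℝ) - 1) := by
    rw [← Real.rpow_natCast, ← Real.rpow_add hcx]
    congr 1
    push_cast
    ring
  have hck : (0 : ℝ) < c ^ (2 * k) := by positivity
  calc x ^ (2 * k) * besselK0 (c * x) ^ 2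
      ≤ x ^ (2 * k) * (cK627 ^ 2 * (Real.exp (-(c * x)) * (c * x) ^ ((1 / 2 : ℝ) - 1))) :=
        mul_le_mul_of_nonneg_left h1 (by positivity)
    _ = cK627 ^ 2 * (c ^ (2 * k))⁻¹ *
          (Real.exp (-(c * x)) * (c * x) ^ ((2 * k + 1 / 2 : ℝ) - 1)) := by
        rw [e, mul_pow]
        field_simp

/-! ## 3. Several variables -/

section Multi

variable {ι : Type} [Fintype ι]

/-- The region `r > 0`, `∏ r_i² ≥ T`. -/
def reg627 (T : ℝ) : Set (ι → ℝ) := {r | (∀ i, 0 < r i) ∧ T ≤ ∏ i, r i ^ 2}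

/-- The integrand of `archG`. -/
def fW627 (c : ι → ℝ) (r : ι → ℝ) : ℝ := ∏ i, besselK0 (c i * r i) ^ 2 / r i

/-- The product majorant. -/
def gW627 (c : ι → ℝ) (k : ℕ) (r : ι → ℝ) : ℝ :=
  ∏ i, (Ioi (0 : ℝ)).indicator (fun x => x ^ (2 * k) * besselK0 (c i * x) ^ 2) (r i)

theorem reg_anti627 {T T' : ℝ} (h : T ≤ T') : reg627 (ι := ι) T' ⊆ reg627 T :=
  fun _ hr => ⟨hr.1, h.trans hr.2⟩

theorem measurableSet_reg627 (T : ℝ) : MeasurableSet (reg627 (ι := ι) T) := by
  have h1 : MeasurableSet {r : ι → ℝ | ∀ i, 0 < r i} := by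
    have : {r : ι → ℝ | ∀ i, 0 < r i} = ⋂ i, {r | 0 < r i} := by
      ext r
      simp
    rw [this]
    exact MeasurableSet.iInter fun i => measurableSet_lt measurable_const (measurable_pi_apply i)
  have h2 : MeasurableSet {r : ι → ℝ | T ≤ ∏ i, r i ^ 2} :=
    measurableSet_le measurable_const
      (Finset.measurable_prod _ fun i _ => (measurable_pi_apply i).pow_const 2)
  exact h1.inter h2

theorem measurable_fW627 (c : ι → ℝ) : Measurable (fW627 c) := by
  refine Finset.measurable_prod _ fun i _ => ?_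
  have h : Measurable fun r : ι → ℝ => c i * r i :=
    Measurable.const_mul (f := fun r : ι → ℝ => r i) (measurable_pi_apply i) (c i)
  exact ((measurable_besselK0_627.comp h).pow_const 2).div (measurable_pi_apply i)

theorem integrable_gW627 {c : ι → ℝ} (hc : ∀ i, 0 < c i) (k : ℕ) :
    Integrable (gW627 c k) (volume : Measure (ι → ℝ)) :=
  Integrable.fintype_prod (μ := fun _ : ι => (volume : Measure ℝ))
    (f := fun i x => (Ioi (0 : ℝ)).indicator
      (fun x => x ^ (2 * k) * besselK0 (c i * x) ^ 2) x)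
    (fun i => (integrable_indicator_iff measurableSet_Ioi).mpr
      (integrableOn_pow_k0_627 (hc i) k))

theorem gW_nonneg627 (c : ι → ℝ) (k : ℕ) (r : ι → ℝ) : 0 ≤ gW627 c k r :=
  Finset.prod_nonneg fun _ _ => Set.indicator_nonneg
    (fun x hx => mul_nonneg (pow_nonneg (le_of_lt (show (0 : ℝ) < x from hx)) _)
      (sq_nonneg _)) _

theorem fW_le627 (c : ι → ℝ) {T : ℝ} (hT : 0 < T) (k : ℕ) {r : ι → ℝ} (hr : r ∈ reg627 T) :
    0 ≤ fW627 c r ∧ fW627 c r ≤ (Real.sqrt T)⁻¹ ^ (2 * k + 1) * gW627 c k r := by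
  obtain ⟨hpos, hT'⟩ := hr
  have hP0 : 0 < ∏ i, r i := Finset.prod_pos fun i _ => hpos i
  have hQ0 : 0 ≤ ∏ i, besselK0 (c i * r i) ^ 2 := Finset.prod_nonneg fun i _ => sq_nonneg _
  have e1 : fW627 c r = (∏ i, besselK0 (c i * r i) ^ 2) / ∏ i, r i := by
    unfold fW627
    rw [Finset.prod_div_distrib]
  have e2 : gW627 c k r = (∏ i, r i) ^ (2 * k) * ∏ i, besselK0 (c i * r i) ^ 2 := by
    unfold gW627
    rw [← Finset.prod_pow, ← Finset.prod_mul_distrib]
    refine Finset.prod_congr rfl fun i _ => ?_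
    rw [Set.indicator_of_mem (show r i ∈ Ioi 0 from hpos i)]
  have hPT : Real.sqrt T ≤ ∏ i, r i := by
    have : T ≤ (∏ i, r i) ^ 2 := by
      rw [← Finset.prod_pow]
      exact hT'
    exact Real.sqrt_le_iff.mpr ⟨hP0.le, this⟩
  have hs : 0 < Real.sqrt T := Real.sqrt_pos.mpr hT
  refine ⟨by rw [e1]; positivity, ?_⟩
  rw [e1, e2]
  have h1 : (∏ i, r i)⁻¹ ^ (2 * k + 1) ≤ (Real.sqrt T)⁻¹ ^ (2 * k + 1) :=
    pow_le_pow_left₀ (inv_nonneg.mpr hP0.le) (inv_anti₀ hs hPT) _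
  have e3 : (∏ i, besselK0 (c i * r i) ^ 2) / ∏ i, r i
      = (∏ i, r i)⁻¹ ^ (2 * k + 1) * ((∏ i, r i) ^ (2 * k) * ∏ i, besselK0 (c i * r i) ^ 2) := by
    have hne : (∏ i, r i) ≠ 0 := hP0.ne'
    rw [inv_pow, pow_succ]
    field_simp
  rw [e3]
  exact mul_le_mul_of_nonneg_right h1 (by positivity)

theorem integrableOn_fW627 {c : ι → ℝ} (hc : ∀ i, 0 < c i) {T : ℝ} (hT : 0 < T) :
    IntegrableOn (fW627 c) (reg627 T) := by
  refine Integrable.mono'
    ((integrable_gW627 hc 0).const_mul ((Real.sqrt T)⁻¹ ^ (2 * 0 + 1))).integrableOn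
    (measurable_fW627 c).aestronglyMeasurable ?_
  refine (ae_restrict_iff' (measurableSet_reg627 T)).mpr
    (Filter.Eventually.of_forall fun r hr => ?_)
  obtain ⟨h0, h1⟩ := fW_le627 c hT 0 hr
  rw [Real.norm_eq_abs, abs_of_nonneg h0]
  exact h1

theorem fW_nonneg_ae627 (c : ι → ℝ) {T : ℝ} (hT : 0 < T) :
    0 ≤ᵐ[(volume : Measure (ι → ℝ)).restrict (reg627 T)] fW627 c :=
  (ae_restrict_iff' (measurableSet_reg627 T)).mpr
    (Filter.Eventually.of_forall fun _ hr => (fW_le627 c hT 0 hr).1)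

theorem archW_le627 {c : ι → ℝ} (hc : ∀ i, 0 < c i) (k : ℕ) {T : ℝ} (hT : 0 < T) :
    ∫ r in reg627 T, fW627 c r ≤ (Real.sqrt T)⁻¹ ^ (2 * k + 1) * ∫ r, gW627 c k r := by
  have hg := (integrable_gW627 hc k).const_mul ((Real.sqrt T)⁻¹ ^ (2 * k + 1))
  calc ∫ r in reg627 T, fW627 c r
      ≤ ∫ r in reg627 T, (Real.sqrt T)⁻¹ ^ (2 * k + 1) * gW627 c k r :=
        setIntegral_mono_on (integrableOn_fW627 hc hT) hg.integrableOn
          (measurableSet_reg627 T) fun r hr => (fW_le627 c hT k hr).2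
    _ ≤ ∫ r, (Real.sqrt T)⁻¹ ^ (2 * k + 1) * gW627 c k r :=
        setIntegral_le_integral hg (Filter.Eventually.of_forall fun r =>
          mul_nonneg (by positivity) (gW_nonneg627 c k r))
    _ = (Real.sqrt T)⁻¹ ^ (2 * k + 1) * ∫ r, gW627 c k r := integral_const_mul _ _

theorem archW_nonneg627 (c : ι → ℝ) {T : ℝ} (hT : 0 < T) : 0 ≤ ∫ r in reg627 T, fW627 c r :=
  setIntegral_nonneg (measurableSet_reg627 T) fun _ hr => (fW_le627 c hT 0 hr).1

theorem archW_anti627 {c : ι → ℝ} (hc : ∀ i, 0 < c i) {T T' : ℝ} (hT : 0 < T) (h : T ≤ T') :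
    ∫ r in reg627 T', fW627 c r ≤ ∫ r in reg627 T, fW627 c r :=
  setIntegral_mono_set (integrableOn_fW627 hc hT) (fW_nonneg_ae627 c hT)
    (Filter.Eventually.of_forall (reg_anti627 h))

theorem archW_pos627 {c : ι → ℝ} (hc : ∀ i, 0 < c i) :
    0 < ∫ r in reg627 (1 : ℝ), fW627 c r := by
  have hbox : Icc (fun _ : ι => (1 : ℝ)) (fun _ => 2) ⊆ reg627 1 := by
    intro r hr
    refine ⟨fun i => lt_of_lt_of_le one_pos (hr.1 i), ?_⟩
    calc (1 : ℝ) = ∏ _i : ι, (1 : ℝ) := by simp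
      _ ≤ ∏ i, r i ^ 2 := Finset.prod_le_prod (fun _ _ => zero_le_one) fun i _ => by
          have := hr.1 i
          simp only at this
          nlinarith
  have hm : ∀ r ∈ Icc (fun _ : ι => (1 : ℝ)) (fun _ => 2),
      ∏ i, besselK0 (c i * 2) ^ 2 / 2 ≤ fW627 c r := by
    intro r hr
    refine Finset.prod_le_prod (fun i _ => by positivity) fun i _ => ?_
    have h1 : (1 : ℝ) ≤ r i := hr.1 i
    have h2 : r i ≤ 2 := hr.2 i
    have h3 : besselK0 (c i * 2) ≤ besselK0 (c i * r i) :=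
      besselK0_anti627 (show c i * r i ∈ Ioi (0 : ℝ) from mul_pos (hc i) (by linarith))
        (show c i * 2 ∈ Ioi (0 : ℝ) from mul_pos (hc i) two_pos)
        (mul_le_mul_of_nonneg_left h2 (hc i).le)
    have h4 : besselK0 (c i * 2) ^ 2 ≤ besselK0 (c i * r i) ^ 2 :=
      pow_le_pow_left₀ (besselK0_nonneg627 _) h3 2
    have h5 : 0 ≤ besselK0 (c i * 2) ^ 2 := sq_nonneg _
    rw [div_le_div_iff₀ two_pos (by linarith)]
    nlinarith
  have hmpos : 0 < ∏ i, besselK0 (c i * 2) ^ 2 / 2 :=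
    Finset.prod_pos fun i _ => by
      have := besselK0_pos627 (mul_pos (hc i) two_pos)
      positivity
  have hvol : (volume : Measure (ι → ℝ)).real (Icc (fun _ : ι => (1 : ℝ)) (fun _ => 2)) = 1 := by
    rw [Measure.real, Real.volume_Icc_pi_toReal (fun _ => by norm_num)]
    norm_num
  have hfin : (volume : Measure (ι → ℝ)) (Icc (fun _ : ι => (1 : ℝ)) (fun _ => 2)) ≠ ⊤ := by
    rw [Real.volume_Icc_pi]
    exact ENNReal.prod_ne_top fun _ _ => ENNReal.ofReal_ne_top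
  have h1 : (∏ i, besselK0 (c i * 2) ^ 2 / 2)
        * (volume : Measure (ι → ℝ)).real (Icc (fun _ : ι => (1 : ℝ)) (fun _ => 2))
      ≤ ∫ r in Icc (fun _ : ι => (1 : ℝ)) (fun _ => 2), fW627 c r :=
    setIntegral_ge_of_const_le_real measurableSet_Icc hfin hm
      ((integrableOn_fW627 hc one_pos).mono_set hbox)
  have h2 : ∫ r in Icc (fun _ : ι => (1 : ℝ)) (fun _ => 2), fW627 c r
      ≤ ∫ r in reg627 (1 : ℝ), fW627 c r :=
    setIntegral_mono_set (integrableOn_fW627 hc one_pos) (fW_nonneg_ae627 c one_pos)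
      (Filter.Eventually.of_forall hbox)
  rw [hvol, mul_one] at h1
  exact lt_of_lt_of_le hmpos (h1.trans h2)

theorem inv_sqrt_div627 {T t₀ : ℝ} (hT : 0 < T) (_ht₀ : 0 < t₀) :
    (Real.sqrt (T / t₀))⁻¹ = Real.sqrt t₀ * T ^ (-(1 / 2) : ℝ) := by
  rw [Real.sqrt_div hT.le, inv_div, Real.rpow_neg hT.le, ← Real.sqrt_eq_rpow, div_eq_mul_inv]

/-- **The weight**, for an abstract finite index set. -/
theorem isWeight_archW627 {c : ι → ℝ} (hc : ∀ i, 0 < c i) {t₀ : ℝ} (ht₀ : 0 < t₀) :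
    IsWeight (fun T => ∫ r in reg627 (T / t₀), fW627 c r) := by
  have hanti : AntitoneOn (fun T => ∫ r in reg627 (T / t₀), fW627 c r) (Ioi 0) := by
    intro T hT T' _ h
    exact archW_anti627 hc (div_pos hT ht₀) (div_le_div_of_nonneg_right h ht₀.le)
  refine ⟨fun T hT => archW_nonneg627 c (div_pos hT ht₀), hanti, ⟨t₀, ht₀, ?_⟩, ?_, ?_⟩
  · show 0 < ∫ r in reg627 (t₀ / t₀), fW627 c r
    rw [div_self ht₀.ne']
    exact archW_pos627 hc
  · -- integrability near `0`
    have hM : IntegrableOn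
        (fun T : ℝ => (Real.sqrt t₀ * ∫ r, gW627 c 0 r) * T ^ (-(1 / 2) : ℝ)) (Ioc 0 1) :=
      (intervalIntegrable_iff_integrableOn_Ioc_of_le zero_le_one).mp
        ((intervalIntegral.intervalIntegrable_rpow' (by norm_num)).const_mul _)
    refine Integrable.mono' hM
      (aemeasurable_restrict_of_antitoneOn measurableSet_Ioc
        (hanti.mono Ioc_subset_Ioi_self)).aestronglyMeasurable ?_
    refine (ae_restrict_iff' measurableSet_Ioc).mpr (Filter.Eventually.of_forall fun T hT => ?_)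
    have hT0 : 0 < T := hT.1
    rw [Real.norm_eq_abs, abs_of_nonneg (archW_nonneg627 c (div_pos hT0 ht₀))]
    have h := archW_le627 hc 0 (div_pos hT0 ht₀)
    rw [mul_zero, zero_add, pow_one, inv_sqrt_div627 hT0 ht₀] at h
    refine h.trans (le_of_eq ?_)
    ring
  · -- decay
    refine ⟨Real.sqrt t₀ ^ 3 * ∫ r, gW627 c 1 r, 1 / 2, by norm_num, fun T hT => ?_⟩
    have hT0 : 0 < T := lt_of_lt_of_le one_pos hT
    have h := archW_le627 hc 1 (div_pos hT0 ht₀)
    rw [inv_sqrt_div627 hT0 ht₀] at h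
    refine h.trans (le_of_eq ?_)
    have e : (T ^ (-(1 / 2) : ℝ)) ^ 3 = T ^ (-(1 + 1 / 2) : ℝ) := by
      rw [← Real.rpow_natCast, ← Real.rpow_mul hT0.le]
      norm_num
    rw [show 2 * 1 + 1 = 3 from rfl, mul_pow, e]
    ring

end Multi

/-! ## 4. The leaf -/

theorem archG_eq627 {K : Type} [Field K] [NumberField K] (hK : TotCplx K)
    (c : InfinitePlace K → ℝ) (T : ℝ) : archG c T = ∫ r in reg627 T, fW627 c r := by
  have hm : ∀ w : InfinitePlace K, w.mult = 2 := fun w => by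
    rw [InfinitePlace.mult, if_neg (InfinitePlace.not_isReal_iff_isComplex.mpr (hK w))]
  have hset : {r : InfinitePlace K → ℝ |
      (∀ w, 0 < r w) ∧ T ≤ ∏ w : InfinitePlace K, r w ^ w.mult} = reg627 T := by
    ext r
    simp only [reg627, Set.mem_ofPred_eq, hm]
  unfold archG
  rw [hset]
  rfl

/-- **T7.14.6d `WeightC`**, VERBATIM, for every number field. -/
theorem weightC627 (K : Type) [Field K] [NumberField K] : WeightC K := by
  intro hK c t₀ hc ht₀
  have h := isWeight_archW627 hc ht₀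
  have e : (fun T => archG c (T / t₀)) = fun T => ∫ r in reg627 (T / t₀), fW627 c r :=
    funext fun T => archG_eq627 hK c (T / t₀)
  rw [e]
  exact h


end Fermat.Agent.LT.T7.H627

end
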