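import Mathlib

/-!
# Row LT, tower T7, leaf C2.1 `UnfoldC305`: the abstract part (helper627, Mathlib only)

OFF-MAIN.

* `lintegral_cut627` : Tonelli on `G × T` + left invariance of `μ`:
  `∫⁻_F g(x) (∫⁻_T β(j t x) dμT) dμ = ∫⁻_G g β · μT{t : (j t)⁻¹ y ∈ F} dμ` for `g` left invariant
  under `j(T)`.
* `measure_eq_of_strict627` : two strict fundamental domains of a countable subgroup have the same
  measure.
* `integral_eq_of_parts627` : a complex Bochner integral is determined by the four lower integrals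
  of the positive / negative parts of the real / imaginary part (no integrability hypothesis).
-/

set_option autoImplicit false
set_option linter.unusedSectionVars false
set_option linter.style.haveILetI false

open MeasureTheory Set
open scoped ENNReal

noncomputable section

namespace Fermat.Agent.LT.T7.H627

section Tonelli

variable {G : Type*} [Group G] [MeasurableSpace G] [MeasurableMul₂ G] [MeasurableInv G]
  {T : Type*} [MeasurableSpace T]

theorem lintegral_cut627 (μ : Measure G) [μ.IsMulLeftInvariant] [SFinite μ]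
    (μT : Measure T) [SFinite μT] (j : T → G) (hj : Measurable j)
    {F : Set G} (hF : MeasurableSet F) {g β : G → ℝ≥0∞} (hg : Measurable g) (hβ : Measurable β)
    (hinv : ∀ (t : T) (x : G), g (j t * x) = g x) :
    ∫⁻ x in F, g x * (∫⁻ t, β (j t * x) ∂μT) ∂μ
      = ∫⁻ y, g y * β y * μT {t : T | (j t)⁻¹ * y ∈ F} ∂μ := by
  have h1 : Measurable fun z : G × T => F.indicator (fun _ => (1 : ℝ≥0∞)) z.1 * g z.1 *
      β (j z.2 * z.1) := by
    refine (((measurable_const.indicator hF).comp measurable_fst).mul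
      (hg.comp measurable_fst)).mul (hβ.comp ?_)
    exact (hj.comp measurable_snd).mul measurable_fst
  have h2 : Measurable fun z : T × G => F.indicator (fun _ => (1 : ℝ≥0∞)) ((j z.1)⁻¹ * z.2) *
      g z.2 * β z.2 := by
    refine (((measurable_const.indicator hF).comp ?_).mul
      (hg.comp measurable_snd)).mul (hβ.comp measurable_snd)
    exact ((hj.comp measurable_fst).inv).mul measurable_snd
  calc ∫⁻ x in F, g x * (∫⁻ t, β (j t * x) ∂μT) ∂μ
      = ∫⁻ x, ∫⁻ t, F.indicator (fun _ => (1 : ℝ≥0∞)) x * g x * β (j t * x) ∂μT ∂μ := by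
        rw [← lintegral_indicator hF]
        refine lintegral_congr fun x => ?_
        have hm : Measurable fun t : T => β (j t * x) := hβ.comp (hj.mul measurable_const)
        by_cases hx : x ∈ F
        · simp only [indicator_of_mem hx, one_mul]
          exact (lintegral_const_mul _ hm).symm
        · simp only [indicator_of_notMem hx, zero_mul, lintegral_zero]
    _ = ∫⁻ t, ∫⁻ x, F.indicator (fun _ => (1 : ℝ≥0∞)) x * g x * β (j t * x) ∂μ ∂μT :=
        lintegral_lintegral_swap h1.aemeasurable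
    _ = ∫⁻ t, ∫⁻ y, F.indicator (fun _ => (1 : ℝ≥0∞)) ((j t)⁻¹ * y) * g y * β y ∂μ ∂μT := by
        refine lintegral_congr fun t => ?_
        rw [← lintegral_mul_left_eq_self (μ := μ)
          (fun x => F.indicator (fun _ => (1 : ℝ≥0∞)) x * g x * β (j t * x)) (j t)⁻¹]
        refine lintegral_congr fun y => ?_
        have e1 : j t * ((j t)⁻¹ * y) = y := mul_inv_cancel_left _ _
        have e2 : g ((j t)⁻¹ * y) = g y := by
          have := hinv t ((j t)⁻¹ * y)
          rw [e1] at this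
          exact this.symm
        simp only [e1, e2]
    _ = ∫⁻ y, ∫⁻ t, F.indicator (fun _ => (1 : ℝ≥0∞)) ((j t)⁻¹ * y) * g y * β y ∂μT ∂μ :=
        lintegral_lintegral_swap h2.aemeasurable
    _ = ∫⁻ y, g y * β y * μT {t : T | (j t)⁻¹ * y ∈ F} ∂μ := by
        refine lintegral_congr fun y => ?_
        have hset : MeasurableSet {t : T | (j t)⁻¹ * y ∈ F} :=
          (hj.inv.mul measurable_const) hF
        have e : ∀ t, F.indicator (fun _ => (1 : ℝ≥0∞)) ((j t)⁻¹ * y) * g y * β y
            = (g y * β y) * {t : T | (j t)⁻¹ * y ∈ F}.indicator (fun _ => (1 : ℝ≥0∞)) t := by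
          intro t
          by_cases ht : (j t)⁻¹ * y ∈ F
          · have ht' : t ∈ {t : T | (j t)⁻¹ * y ∈ F} := ht
            simp [ht, ht']
          · have ht' : t ∉ {t : T | (j t)⁻¹ * y ∈ F} := ht
            simp [ht, ht']
        simp_rw [e]
        rw [lintegral_const_mul _ (measurable_const.indicator hset),
          lintegral_indicator hset]
        simp

end Tonelli

section Fund

theorem measure_eq_of_strict627 {T : Type*} [Group T] [MeasurableSpace T] [MeasurableMul T]
    (μT : Measure T) [μT.IsMulLeftInvariant] (Γ : Subgroup T) [Countable Γ]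
    {E₁ E₂ : Set T} (h₁m : MeasurableSet E₁) (h₂m : MeasurableSet E₂)
    (h₁ : ∀ t : T, ∃! γ : Γ, (γ : T) * t ∈ E₁) (h₂ : ∀ t : T, ∃! γ : Γ, (γ : T) * t ∈ E₂) :
    μT E₁ = μT E₂ :=
  (IsFundamentalDomain.mk' (G := Γ) h₁m.nullMeasurableSet h₁).measure_eq
    (IsFundamentalDomain.mk' (G := Γ) h₂m.nullMeasurableSet h₂)

end Fund

section Parts

variable {X : Type*} [MeasurableSpace X]

theorem integrable_iff_parts627 (m : Measure X) {f : X → ℝ} (hf : Measurable f) :
    Integrable f m ↔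
      (∫⁻ x, ENNReal.ofReal (f x) ∂m ≠ ⊤ ∧ ∫⁻ x, ENNReal.ofReal (-f x) ∂m ≠ ⊤) := by
  have hsum : ∫⁻ x, ‖f x‖ₑ ∂m
      = ∫⁻ x, ENNReal.ofReal (f x) ∂m + ∫⁻ x, ENNReal.ofReal (-f x) ∂m := by
    have hm1 : Measurable fun x => ENNReal.ofReal (f x) := ENNReal.measurable_ofReal.comp hf
    rw [← lintegral_add_left hm1]
    refine lintegral_congr fun x => ?_
    rw [Real.enorm_eq_ofReal_abs]
    rcases le_total 0 (f x) with h | h
    · rw [abs_of_nonneg h, ENNReal.ofReal_of_nonpos (neg_nonpos.mpr h), add_zero]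
    · rw [abs_of_nonpos h, ENNReal.ofReal_of_nonpos h, zero_add]
  constructor
  · intro h
    have h' : ∫⁻ x, ‖f x‖ₑ ∂m < ⊤ := h.hasFiniteIntegral
    rw [hsum] at h'
    exact ⟨(ENNReal.add_lt_top.mp h').1.ne, (ENNReal.add_lt_top.mp h').2.ne⟩
  · rintro ⟨h1, h2⟩
    refine ⟨hf.aestronglyMeasurable, ?_⟩
    show ∫⁻ x, ‖f x‖ₑ ∂m < ⊤
    rw [hsum]
    exact ENNReal.add_lt_top.mpr ⟨h1.lt_top, h2.lt_top⟩

/-- The four parts are finite. -/
def PartsFin627 (m : Measure X) (h : X → ℂ) : Prop :=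
  (∫⁻ x, ENNReal.ofReal (h x).re ∂m ≠ ⊤ ∧ ∫⁻ x, ENNReal.ofReal (-(h x).re) ∂m ≠ ⊤) ∧
    (∫⁻ x, ENNReal.ofReal (h x).im ∂m ≠ ⊤ ∧ ∫⁻ x, ENNReal.ofReal (-(h x).im) ∂m ≠ ⊤)

theorem integrable_iff_partsFin627 (m : Measure X) {h : X → ℂ} (hh : Measurable h) :
    Integrable h m ↔ PartsFin627 m h := by
  have hre : Measurable fun x => (h x).re := Complex.measurable_re.comp hh
  have him : Measurable fun x => (h x).im := Complex.measurable_im.comp hh
  rw [← Integrable.re_im_iff (f := h)]
  exact and_congr (integrable_iff_parts627 m hre) (integrable_iff_parts627 m him)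

theorem integral_eq_parts627 (m : Measure X) {h : X → ℂ} (hh : Measurable h)
    (hfin : PartsFin627 m h) :
    ∫ x, h x ∂m
      = (((∫⁻ x, ENNReal.ofReal (h x).re ∂m).toReal
          - (∫⁻ x, ENNReal.ofReal (-(h x).re) ∂m).toReal : ℝ) : ℂ)
        + (((∫⁻ x, ENNReal.ofReal (h x).im ∂m).toReal
          - (∫⁻ x, ENNReal.ofReal (-(h x).im) ∂m).toReal : ℝ) : ℂ) * Complex.I := by
  have hint : Integrable h m := (integrable_iff_partsFin627 m hh).mpr hfin
  have hr : Integrable (fun x => (h x).re) m := hint.re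
  have hi : Integrable (fun x => (h x).im) m := hint.im
  rw [← integral_re_add_im hint]
  have e1 := integral_eq_lintegral_pos_part_sub_lintegral_neg_part hr
  have e2 := integral_eq_lintegral_pos_part_sub_lintegral_neg_part hi
  simp only [RCLike.re_to_complex, RCLike.im_to_complex, RCLike.I_to_complex] at *
  rw [e1, e2]
  rfl

theorem integral_eq_zero_of_not_partsFin627 (m : Measure X) {h : X → ℂ} (hh : Measurable h)
    (hfin : ¬ PartsFin627 m h) : ∫ x, h x ∂m = 0 :=
  integral_undef fun hint => hfin ((integrable_iff_partsFin627 m hh).mp hint)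

/-- **A complex Bochner integral is determined by the four lower integrals.** -/
theorem integral_eq_of_parts627 (m₁ m₂ : Measure X) (c : ℝ≥0∞) {h₁ h₂ : X → ℂ}
    (hm₁ : Measurable h₁) (hm₂ : Measurable h₂)
    (e1 : ∫⁻ x, ENNReal.ofReal (h₁ x).re ∂m₁ = c * ∫⁻ x, ENNReal.ofReal (h₂ x).re ∂m₂)
    (e2 : ∫⁻ x, ENNReal.ofReal (-(h₁ x).re) ∂m₁ = c * ∫⁻ x, ENNReal.ofReal (-(h₂ x).re) ∂m₂)
    (e3 : ∫⁻ x, ENNReal.ofReal (h₁ x).im ∂m₁ = c * ∫⁻ x, ENNReal.ofReal (h₂ x).im ∂m₂)
    (e4 : ∫⁻ x, ENNReal.ofReal (-(h₁ x).im) ∂m₁ = c * ∫⁻ x, ENNReal.ofReal (-(h₂ x).im) ∂m₂) :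
    ∫ x, h₁ x ∂m₁ = ((c.toReal : ℝ) : ℂ) * ∫ x, h₂ x ∂m₂ := by
  by_cases hc : c = 0 ∨ c = ⊤
  · -- the right side vanishes
    have hc' : c.toReal = 0 := by
      rcases hc with h | h
      · rw [h]; rfl
      · rw [h]; rfl
    rw [hc', Complex.ofReal_zero, zero_mul]
    -- every part on the left is `0` or `⊤`
    have key : ∀ a : ℝ≥0∞, c * a ≠ ⊤ → c * a = 0 := by
      intro a ha
      rcases hc with h | h
      · rw [h, zero_mul]
      · by_cases ha0 : a = 0
        · rw [ha0, mul_zero]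
        · exact absurd (by rw [h]; exact ENNReal.top_mul ha0) ha
    by_cases hfin : PartsFin627 m₁ h₁
    · rw [integral_eq_parts627 m₁ hm₁ hfin]
      obtain ⟨⟨f1, f2⟩, f3, f4⟩ := hfin
      rw [e1] at f1 ⊢
      rw [e2] at f2 ⊢
      rw [e3] at f3 ⊢
      rw [e4] at f4 ⊢
      rw [key _ f1, key _ f2, key _ f3, key _ f4]
      simp
    · exact integral_eq_zero_of_not_partsFin627 m₁ hm₁ hfin
  · have hc0 : c ≠ 0 := fun h => hc (Or.inl h)
    have hct : c ≠ ⊤ := fun h => hc (Or.inr h)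
    have key : ∀ a : ℝ≥0∞, c * a ≠ ⊤ ↔ a ≠ ⊤ := by
      intro a
      constructor
      · intro h ha
        apply h
        rw [ha]
        exact ENNReal.mul_top hc0
      · intro ha
        exact ENNReal.mul_ne_top hct ha
    have hiff : PartsFin627 m₁ h₁ ↔ PartsFin627 m₂ h₂ := by
      unfold PartsFin627
      rw [e1, e2, e3, e4, key, key, key, key]
    by_cases hfin : PartsFin627 m₂ h₂
    · rw [integral_eq_parts627 m₁ hm₁ (hiff.mpr hfin), integral_eq_parts627 m₂ hm₂ hfin,
        e1, e2, e3, e4]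
      simp only [ENNReal.toReal_mul]
      push_cast
      ring
    · rw [integral_eq_zero_of_not_partsFin627 m₂ hm₂ hfin,
        integral_eq_zero_of_not_partsFin627 m₁ hm₁ (fun h => hfin (hiff.mp h)), mul_zero]

end Parts

end Fermat.Agent.LT.T7.H627

end
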