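import Mathlib

/-!
# Row LT, tower T7, leaf C2.7.4 `HaarSplitC305` -- abstract core (helper627, spare)

OFF-MAIN.  Mathlib only.  (Multiplicative, non-commutative form of helper201's
`A2/H201/PushHaar.lean`.)

* `isMulLeftInvariant_map_restrict627`: the push-forward of the restriction of a left invariant
  measure to a subgroup `B` under a multiplicative map `q` which is onto on `B` is left invariant.
* `map_restrict_eq_smul627`: it is a multiple of any Haar measure of the target, the constant
  being computed on one set `E` with non-empty interior.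
-/

set_option autoImplicit false
set_option linter.unusedSectionVars false
set_option linter.style.haveILetI false

open MeasureTheory Set Filter Topology
open scoped ENNReal NNReal

noncomputable section

namespace Fermat.Agent.LT.T7.H627

section PushMul

variable {Y H : Type*} [Group Y] [TopologicalSpace Y] [MeasurableSpace Y] [BorelSpace Y]
  [IsTopologicalGroup Y]
  [Group H] [TopologicalSpace H] [MeasurableSpace H] [BorelSpace H]
  [IsTopologicalGroup H]

/-- Push-forward of the restriction of a left invariant measure to a subgroup `B` under a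
multiplicative map which is onto on `B`: the result is left invariant. -/
theorem isMulLeftInvariant_map_restrict627 (lam : Measure Y) [lam.IsMulLeftInvariant]
    (B : Subgroup Y) (hB : MeasurableSet (B : Set Y)) (q : Y → H) (hq : Measurable q)
    (hmul : ∀ x y, q (x * y) = q x * q y)
    (hsurj : ∀ h : H, ∃ b ∈ B, q b = h) :
    ((lam.restrict (B : Set Y)).map q).IsMulLeftInvariant := by
  refine ⟨fun h => ?_⟩
  obtain ⟨b, hb, rfl⟩ := hsurj h
  rw [Measure.map_map (measurable_const_mul _) hq]
  have h1 : (fun x => q b * x) ∘ q = q ∘ (fun y => b * y) := by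
    funext y
    simp [hmul]
  rw [h1, ← Measure.map_map hq (measurable_const_mul b)]
  congr 1
  have h2 : (fun y => b * y) ⁻¹' (B : Set Y) = (B : Set Y) := by
    ext y
    simp only [mem_preimage, SetLike.mem_coe]
    exact ⟨fun hy => by simpa using B.mul_mem (B.inv_mem hb) hy, fun hy => B.mul_mem hb hy⟩
  have h3 := Measure.restrict_map (μ := lam) (measurable_const_mul b) hB
  rw [h2, map_mul_left_eq_self] at h3
  exact h3.symm

/-- The push-forward is a multiple of every Haar measure of the target. -/
theorem map_restrict_eq_smul627 [LocallyCompactSpace H] [SecondCountableTopology H]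
    (lam : Measure Y) [lam.IsMulLeftInvariant]
    (B : Subgroup Y) (hB : MeasurableSet (B : Set Y)) (q : Y → H) (hq : Measurable q)
    (hmul : ∀ x y, q (x * y) = q x * q y)
    (hsurj : ∀ h : H, ∃ b ∈ B, q b = h)
    (m : Measure H) [m.IsHaarMeasure]
    (E : Set H) (hE : MeasurableSet E) (hEint : (interior E).Nonempty)
    (hfin : lam ((B : Set Y) ∩ q ⁻¹' E) ≠ ∞) (hm0 : m E ≠ 0) (hmtop : m E ≠ ∞) :
    (lam.restrict (B : Set Y)).map q = (lam ((B : Set Y) ∩ q ⁻¹' E) / m E) • m := by
  set nu := (lam.restrict (B : Set Y)).map q with hnu
  have hinv : nu.IsMulLeftInvariant := isMulLeftInvariant_map_restrict627 lam B hB q hq hmul hsurj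
  have hnuE : nu E = lam ((B : Set Y) ∩ q ⁻¹' E) := by
    rw [hnu, Measure.map_apply hq hE, Measure.restrict_apply (hq hE), inter_comm]
  have hfinc : IsFiniteMeasureOnCompacts nu :=
    ⟨fun C hC => measure_lt_top_of_isCompact_of_isMulLeftInvariant (interior E) isOpen_interior
      hEint (ne_top_of_le_ne_top (by rw [hnuE]; exact hfin) (measure_mono interior_subset)) hC⟩
  have h1 := Measure.isMulLeftInvariant_eq_smul nu m
  have h2 : nu E = (Measure.haarScalarFactor nu m : ℝ≥0∞) * m E := by
    conv_lhs => rw [h1]
    simp [Measure.smul_apply]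
  have h3 : (Measure.haarScalarFactor nu m : ℝ≥0∞) = lam ((B : Set Y) ∩ q ⁻¹' E) / m E := by
    rw [← hnuE, h2, ENNReal.mul_div_cancel_right hm0 hmtop]
  rw [h1, ← h3]
  rfl

end PushMul

end Fermat.Agent.LT.T7.H627
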