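import Mathlib
import Fermat.Agent.LT.T7.H305.MatchCut
import Fermat.Agent.LT.T7.H627.HaarSplitAbs
import Fermat.Agent.LT.T1.H919.K0Compact
import Fermat.Agent.LT.T1.H724.HeckeCoset
import Fermat.Agent.LT.H11.SC
import Fermat.Agent.LT.H11.LC

/-!
# Row LT, tower T7, leaf C2.7.4 `HaarSplitC305` (helper627, spare of registry row 2568)

OFF-MAIN.  `haarSplitC627 K : H305.HaarSplitC305 K`, UNCONDITIONAL.

The Haar measure of `GL₂(𝔸_K)` restricted to `Out_S` and pushed forward to
`∏_{v ∈ S} GL₂(K_v) × ∏_w GL₂(ℂ)` is `c` times the product measure, `c` the same for all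
`S ⊇ T₀`.
-/

set_option autoImplicit false
set_option linter.unusedSectionVars false
set_option linter.style.haveILetI false
set_option linter.unusedVariables false

open AutomorphicForm IsDedekindDomain NumberField MeasureTheory
open scoped ComplexConjugate ENNReal

noncomputable section

namespace Fermat.Agent.LT.T7.H627

open Fermat.Agent.LT.H556 Fermat.Agent.LT.H556.A0 Fermat.Agent.LT.T7 Fermat.Agent.LT.T7.H305
open Fermat.Agent.LT.T1.H919 Fermat.Agent.LT.T1.H724

attribute [local instance] Fermat.Agent.LT.T5.instMeasurableSpaceG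

variable {K : Type} [Field K] [NumberField K]

/-! ## 1. Components -/

theorem finGL_val627 (v : HeightOneSpectrum (𝓞 K)) (g : G K) :
    ((finGL305 v g : GL (Fin 2) (v.adicCompletion K)) : Matrix (Fin 2) (Fin 2) _) = finComp v g :=
  rfl

theorem finGL_inv_val627 (v : HeightOneSpectrum (𝓞 K)) (g : G K) :
    (((finGL305 v g)⁻¹ : GL (Fin 2) (v.adicCompletion K)) : Matrix (Fin 2) (Fin 2) _)
      = finComp v g⁻¹ := by
  rw [← map_inv]
  rfl

theorem infGL_val627 (w : InfinitePlace K) (g : G K) :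
    ((infGL305 w g : GL (Fin 2) ℂ) : Matrix (Fin 2) (Fin 2) ℂ) = infComp w g :=
  rfl

theorem infGL_inv_val627 (w : InfinitePlace K) (g : G K) :
    (((infGL305 w g)⁻¹ : GL (Fin 2) ℂ) : Matrix (Fin 2) (Fin 2) ℂ) = infComp w g⁻¹ := by
  rw [← map_inv]
  rfl

theorem continuous_finGL627 (v : HeightOneSpectrum (𝓞 K)) :
    Continuous (fun g : G K => finGL305 v g) := by
  refine Units.continuous_iff.2 ⟨?_, ?_⟩
  · exact continuous_matrix fun i j => continuous_finComp919 v i j
  · have h : (fun g : G K => (((finGL305 v g)⁻¹ : GL (Fin 2) (v.adicCompletion K)) :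
        Matrix (Fin 2) (Fin 2) _)) = fun g => finComp v g⁻¹ := by
      funext g
      exact finGL_inv_val627 v g
    rw [h]
    exact continuous_matrix fun i j => (continuous_finComp919 v i j).comp continuous_inv

theorem continuous_infGL627 (w : InfinitePlace K) :
    Continuous (fun g : G K => infGL305 w g) := by
  refine Units.continuous_iff.2 ⟨?_, ?_⟩
  · exact continuous_matrix fun i j => continuous_infComp_entry919 w i j
  · have h : (fun g : G K => (((infGL305 w g)⁻¹ : GL (Fin 2) ℂ) :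
        Matrix (Fin 2) (Fin 2) _)) = fun g => infComp w g⁻¹ := by
      funext g
      exact infGL_inv_val627 w g
    rw [h]
    exact continuous_matrix fun i j => (continuous_infComp_entry919 w i j).comp continuous_inv

theorem continuous_compS627 (S : Finset (HeightOneSpectrum (𝓞 K))) :
    Continuous (compS305 (K := K) S) := by
  unfold compS305
  exact (continuous_pi fun v => continuous_finGL627 v.1).prodMk
    (continuous_pi fun w => continuous_infGL627 w)

theorem compS_mul627 (S : Finset (HeightOneSpectrum (𝓞 K))) (x y : G K) :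
    compS305 S (x * y) = compS305 S x * compS305 S y := by
  unfold compS305
  refine Prod.ext ?_ ?_
  · funext v
    simp
  · funext w
    simp

/-! ## 2. `Out_S` -/

theorem isIntegralAt_one627 (v : HeightOneSpectrum (𝓞 K)) : IsIntegralAt v (1 : G K) := by
  intro i j
  have h : finComp v (1 : G K) = 1 := by
    rw [finComp_eq_map724, Units.val_one]
    exact Matrix.map_one _ (map_zero _) (map_one _)
  rw [h, Matrix.one_apply]
  split_ifs
  · exact one_mem _
  · exact zero_mem _

theorem isIntegralAt_mul627 (v : HeightOneSpectrum (𝓞 K)) {g h : G K}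
    (hg : IsIntegralAt v g) (hh : IsIntegralAt v h) : IsIntegralAt v (g * h) := by
  intro i j
  rw [finComp_mul724, Matrix.mul_apply]
  exact sum_mem fun k _ => mul_mem (hg i k) (hh k j)

/-- `Out_S` as a subgroup. -/
def outSub627 (S : Finset (HeightOneSpectrum (𝓞 K))) : Subgroup (G K) where
  carrier := {y | OutT305 S y}
  one_mem' := fun v _ => ⟨isIntegralAt_one627 v, by rw [inv_one]; exact isIntegralAt_one627 v⟩
  mul_mem' := fun {a b} ha hb v hv =>
    ⟨isIntegralAt_mul627 v (ha v hv).1 (hb v hv).1, by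
      rw [mul_inv_rev]; exact isIntegralAt_mul627 v (hb v hv).2 (ha v hv).2⟩
  inv_mem' := fun {a} ha v hv => ⟨(ha v hv).2, by rw [inv_inv]; exact (ha v hv).1⟩

theorem coe_outSub627 (S : Finset (HeightOneSpectrum (𝓞 K))) :
    ((outSub627 S : Subgroup (G K)) : Set (G K)) = {y | OutT305 S y} := rfl

theorem isClosed_out627 (S : Finset (HeightOneSpectrum (𝓞 K))) :
    IsClosed {y : G K | OutT305 S y} := by
  have e : {y : G K | OutT305 S y}
      = ⋂ v : HeightOneSpectrum (𝓞 K), ⋂ _ : v ∉ S,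
          ({g : G K | IsIntegralAt v g} ∩ (fun g : G K => g⁻¹) ⁻¹' {g : G K | IsIntegralAt v g}) := by
    ext y
    simp only [Set.mem_iInter, Set.mem_inter_iff, Set.mem_preimage, Set.mem_setOf_eq]
    rfl
  rw [e]
  exact isClosed_iInter fun v => isClosed_iInter fun _ =>
    (isClosed_isIntegralAt919 v).inter ((isClosed_isIntegralAt919 v).preimage continuous_inv)

/-! ## 3. Elements with prescribed components; surjectivity -/

/-- The adele with the components `xI w`, `xf v` (the latter integral outside `S`). -/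
def mkAdS627 (S : Finset (HeightOneSpectrum (𝓞 K))) (xI : ∀ w : InfinitePlace K, w.Completion)
    (xf : ∀ v : HeightOneSpectrum (𝓞 K), v.adicCompletion K)
    (h : ∀ v, v ∉ S → Valued.v (xf v) ≤ 1) : Adl K :=
  (xI, ⟨xf, by
    refine Filter.eventually_cofinite.2 (S.finite_toSet.subset fun v hv => ?_)
    by_contra hvS
    exact hv ((HeightOneSpectrum.mem_adicCompletionIntegers (𝓞 K) K v).2 (h v hvS))⟩)

/-- The adelic matrix with the components `MI w`, `Mf v` (the latter integral outside `S`). -/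
def mkMatS627 (S : Finset (HeightOneSpectrum (𝓞 K)))
    (MI : ∀ w : InfinitePlace K, Matrix (Fin 2) (Fin 2) w.Completion)
    (Mf : ∀ v : HeightOneSpectrum (𝓞 K), Matrix (Fin 2) (Fin 2) (v.adicCompletion K))
    (h : ∀ v, v ∉ S → ∀ i j, Valued.v (Mf v i j) ≤ 1) : Matrix (Fin 2) (Fin 2) (Adl K) :=
  fun i j => mkAdS627 S (fun w => MI w i j) (fun v => Mf v i j) (fun v hv => h v hv i j)

theorem mkMatS_map_inf627 (S : Finset (HeightOneSpectrum (𝓞 K)))
    (MI : ∀ w : InfinitePlace K, Matrix (Fin 2) (Fin 2) w.Completion)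
    (Mf : ∀ v : HeightOneSpectrum (𝓞 K), Matrix (Fin 2) (Fin 2) (v.adicCompletion K))
    (h : ∀ v, v ∉ S → ∀ i j, Valued.v (Mf v i j) ≤ 1) (w : InfinitePlace K) :
    (mkMatS627 S MI Mf h).map (evInf724 w) = MI w := rfl

theorem mkMatS_map_fin627 (S : Finset (HeightOneSpectrum (𝓞 K)))
    (MI : ∀ w : InfinitePlace K, Matrix (Fin 2) (Fin 2) w.Completion)
    (Mf : ∀ v : HeightOneSpectrum (𝓞 K), Matrix (Fin 2) (Fin 2) (v.adicCompletion K))
    (h : ∀ v, v ∉ S → ∀ i j, Valued.v (Mf v i j) ≤ 1) (v : HeightOneSpectrum (𝓞 K)) :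
    (mkMatS627 S MI Mf h).map (evFin724 v) = Mf v := rfl

theorem mkMatS_mul627 (S : Finset (HeightOneSpectrum (𝓞 K)))
    (MI NI : ∀ w : InfinitePlace K, Matrix (Fin 2) (Fin 2) w.Completion)
    (Mf Nf : ∀ v : HeightOneSpectrum (𝓞 K), Matrix (Fin 2) (Fin 2) (v.adicCompletion K))
    (hM : ∀ v, v ∉ S → ∀ i j, Valued.v (Mf v i j) ≤ 1)
    (hN : ∀ v, v ∉ S → ∀ i j, Valued.v (Nf v i j) ≤ 1)
    (h1 : ∀ w, MI w * NI w = 1) (h3 : ∀ v, Mf v * Nf v = 1) :
    mkMatS627 S MI Mf hM * mkMatS627 S NI Nf hN = 1 := by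
  refine mat_ext724 (fun w => ?_) (fun v => ?_)
  · rw [Matrix.map_mul, mkMatS_map_inf627, mkMatS_map_inf627, h1,
      Matrix.map_one _ (map_zero _) (map_one _)]
  · rw [Matrix.map_mul, mkMatS_map_fin627, mkMatS_map_fin627, h3,
      Matrix.map_one _ (map_zero _) (map_one _)]

/-- The element of `GL₂(𝔸_K)` with the components `MI w`, `Mf v` and inverse components
`NI w`, `Nf v`. -/
def mkGS627 (S : Finset (HeightOneSpectrum (𝓞 K)))
    (MI NI : ∀ w : InfinitePlace K, Matrix (Fin 2) (Fin 2) w.Completion)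
    (Mf Nf : ∀ v : HeightOneSpectrum (𝓞 K), Matrix (Fin 2) (Fin 2) (v.adicCompletion K))
    (hM : ∀ v, v ∉ S → ∀ i j, Valued.v (Mf v i j) ≤ 1)
    (hN : ∀ v, v ∉ S → ∀ i j, Valued.v (Nf v i j) ≤ 1)
    (h1 : ∀ w, MI w * NI w = 1) (h3 : ∀ v, Mf v * Nf v = 1) : G K :=
  ⟨mkMatS627 S MI Mf hM, mkMatS627 S NI Nf hN, mkMatS_mul627 S MI NI Mf Nf hM hN h1 h3,
    mkMatS_mul627 S NI MI Nf Mf hN hM (fun w => mul_eq_one_comm.1 (h1 w))
      (fun v => mul_eq_one_comm.1 (h3 v))⟩

theorem val_one_apply_le627 (v : HeightOneSpectrum (𝓞 K)) (i j : Fin 2) :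
    Valued.v ((1 : Matrix (Fin 2) (Fin 2) (v.adicCompletion K)) i j) ≤ 1 := by
  by_cases h : i = j
  · rw [Matrix.one_apply, if_pos h, map_one]
  · rw [Matrix.one_apply, if_neg h, map_zero]
    exact zero_le_one

open Classical in
/-- The family `a v` (`v ∈ S`), `1` (`v ∉ S`). -/
def finFam627 (S : Finset (HeightOneSpectrum (𝓞 K)))
    (a : ∀ v : S, GL (Fin 2) ((v : HeightOneSpectrum (𝓞 K)).adicCompletion K))
    (v : HeightOneSpectrum (𝓞 K)) : GL (Fin 2) (v.adicCompletion K) :=
  if h : v ∈ S then a ⟨v, h⟩ else 1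

theorem compS_surj627 (hK : TotCplx K) (S : Finset (HeightOneSpectrum (𝓞 K)))
    (h : (∀ v : S, GL (Fin 2) ((v : HeightOneSpectrum (𝓞 K)).adicCompletion K)) ×
      (InfinitePlace K → GL (Fin 2) ℂ)) :
    ∃ b ∈ outSub627 S, compS305 S b = h := by
  classical
  set e : ∀ w : InfinitePlace K, w.Completion ≃+* ℂ :=
    fun w => InfinitePlace.Completion.ringEquivComplexOfIsComplex (hK w) with he
  set MI : ∀ w : InfinitePlace K, Matrix (Fin 2) (Fin 2) w.Completion :=
    fun w => ((h.2 w : GL (Fin 2) ℂ) : Matrix (Fin 2) (Fin 2) ℂ).map (e w).symm with hMI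
  set NI : ∀ w : InfinitePlace K, Matrix (Fin 2) (Fin 2) w.Completion :=
    fun w => (((h.2 w)⁻¹ : GL (Fin 2) ℂ) : Matrix (Fin 2) (Fin 2) ℂ).map (e w).symm with hNI
  set Mf : ∀ v : HeightOneSpectrum (𝓞 K), Matrix (Fin 2) (Fin 2) (v.adicCompletion K) :=
    fun v => ((finFam627 S h.1 v : GL (Fin 2) (v.adicCompletion K)) : Matrix (Fin 2) (Fin 2) _)
    with hMf
  set Nf : ∀ v : HeightOneSpectrum (𝓞 K), Matrix (Fin 2) (Fin 2) (v.adicCompletion K) :=
    fun v => (((finFam627 S h.1 v)⁻¹ : GL (Fin 2) (v.adicCompletion K)) :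
      Matrix (Fin 2) (Fin 2) _) with hNf
  have hM : ∀ v, v ∉ S → ∀ i j, Valued.v (Mf v i j) ≤ 1 := by
    intro v hv i j
    simp only [hMf, finFam627, dif_neg hv, Units.val_one]
    exact val_one_apply_le627 v i j
  have hN : ∀ v, v ∉ S → ∀ i j, Valued.v (Nf v i j) ≤ 1 := by
    intro v hv i j
    simp only [hNf, finFam627, dif_neg hv, inv_one, Units.val_one]
    exact val_one_apply_le627 v i j
  have h1 : ∀ w, MI w * NI w = 1 := by
    intro w
    have h0 := Matrix.map_mul (L := ((h.2 w : GL (Fin 2) ℂ) : Matrix (Fin 2) (Fin 2) ℂ))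
      (M := (((h.2 w)⁻¹ : GL (Fin 2) ℂ) : Matrix (Fin 2) (Fin 2) ℂ))
      (f := ((e w).symm : ℂ →+* w.Completion))
    refine h0.symm.trans ?_
    rw [← Units.val_mul, mul_inv_cancel, Units.val_one]
    exact Matrix.map_one _ (map_zero _) (map_one _)
  have h3 : ∀ v, Mf v * Nf v = 1 := by
    intro v
    simp only [hMf, hNf]
    rw [← Units.val_mul, mul_inv_cancel, Units.val_one]
  refine ⟨mkGS627 S MI NI Mf Nf hM hN h1 h3, ?_, ?_⟩
  · intro v hv
    refine ⟨fun i j => ?_, fun i j => ?_⟩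
    · exact (HeightOneSpectrum.mem_adicCompletionIntegers (𝓞 K) K v).2 (hM v hv i j)
    · exact (HeightOneSpectrum.mem_adicCompletionIntegers (𝓞 K) K v).2 (hN v hv i j)
  · refine Prod.ext ?_ ?_
    · funext v
      refine Units.ext ?_
      show Mf v.1 = _
      simp only [hMf, finFam627, dif_pos v.2]
    · funext w
      refine Units.ext ?_
      show (MI w).map (InfinitePlace.Completion.extensionEmbedding w) = _
      ext i j
      simp only [hMI, Matrix.map_apply]
      exact (e w).apply_symm_apply _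

/-! ## 4. The local groups `U(n)` are open -/

theorem exists_val_eq_exp627 (v : HeightOneSpectrum (𝓞 K)) (n : ℕ) :
    ∃ y : v.adicCompletion K, Valued.v y = WithZero.exp (-(n : ℤ)) := by
  obtain ⟨π, hπ⟩ := v.valuation_exists_uniformizer K
  refine ⟨((π ^ n : K) : v.adicCompletion K), ?_⟩
  rw [HeightOneSpectrum.valuedAdicCompletion_eq_valuation', map_pow, hπ, ← WithZero.exp_nsmul]
  simp

theorem isOpen_ball_le627 (v : HeightOneSpectrum (𝓞 K)) (c : v.adicCompletion K) (n : ℕ) :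
    IsOpen {x : v.adicCompletion K | Valued.v (x - c) ≤ WithZero.exp (-(n : ℤ))} := by
  obtain ⟨y, hy⟩ := exists_val_eq_exp627 v n
  have hy0 : (Valued.v : Valuation (v.adicCompletion K) _).restrict y ≠ 0 := by
    rw [Ne, Valuation.restrict_eq_zero_iff, hy]
    exact WithZero.exp_ne_zero
  have h0 := Valued.isOpen_closedBall (v.adicCompletion K) hy0
  have h1 : {x : v.adicCompletion K | Valued.v (x - c) ≤ WithZero.exp (-(n : ℤ))}
      = (fun x => x - c) ⁻¹' {x | (Valued.v : Valuation (v.adicCompletion K) _).restrict x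
          ≤ (Valued.v : Valuation (v.adicCompletion K) _).restrict y} := by
    ext x
    simp only [Set.mem_preimage, Set.mem_setOf_eq, Valuation.restrict_le_iff, hy]
  rw [h1]
  exact h0.preimage (by fun_prop)

theorem isOpen_inU627 (v : HeightOneSpectrum (𝓞 K)) (n : ℕ) :
    IsOpen {g : GL (Fin 2) (v.adicCompletion K) | T6.InU n g} := by
  have e : {g : GL (Fin 2) (v.adicCompletion K) | T6.InU n g}
      = ⋂ i : Fin 2, ⋂ j : Fin 2,
        ((fun g : GL (Fin 2) (v.adicCompletion K) =>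
            (g : Matrix (Fin 2) (Fin 2) (v.adicCompletion K)) i j) ⁻¹'
          {x | Valued.v (x - (1 : Matrix (Fin 2) (Fin 2) (v.adicCompletion K)) i j)
            ≤ WithZero.exp (-(n : ℤ))}) ∩
        ((fun g : GL (Fin 2) (v.adicCompletion K) =>
            ((g⁻¹ : GL (Fin 2) (v.adicCompletion K)) :
              Matrix (Fin 2) (Fin 2) (v.adicCompletion K)) i j) ⁻¹'
          {x | Valued.v (x - (1 : Matrix (Fin 2) (Fin 2) (v.adicCompletion K)) i j)
            ≤ WithZero.exp (-(n : ℤ))}) := by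
    ext g
    simp only [Set.mem_iInter, Set.mem_inter_iff, Set.mem_preimage, Set.mem_setOf_eq]
    rfl
  rw [e]
  refine isOpen_iInter_of_finite fun i => isOpen_iInter_of_finite fun j => IsOpen.inter ?_ ?_
  · exact (isOpen_ball_le627 v _ n).preimage (Units.continuous_val.matrix_elem i j)
  · exact (isOpen_ball_le627 v _ n).preimage (Units.continuous_coe_inv.matrix_elem i j)

theorem one_mem_inU627 (v : HeightOneSpectrum (𝓞 K)) (n : ℕ) :
    T6.InU n (1 : GL (Fin 2) (v.adicCompletion K)) := by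
  intro i j
  simp

/-- `U(0)` at `v` = integrality of `y` and `y⁻¹` at `v`. -/
theorem inU_zero_iff627 (v : HeightOneSpectrum (𝓞 K)) (y : G K) :
    T6.InU 0 (finGL305 v y) ↔ IsIntegralAt v y ∧ IsIntegralAt v y⁻¹ := by
  have key : ∀ (x : v.adicCompletion K) (i j : Fin 2),
      Valued.v (x - (1 : Matrix (Fin 2) (Fin 2) (v.adicCompletion K)) i j)
          ≤ WithZero.exp (-((0 : ℕ) : ℤ)) ↔ x ∈ v.adicCompletionIntegers K := by
    intro x i j
    have h1 : (1 : Matrix (Fin 2) (Fin 2) (v.adicCompletion K)) i j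
        ∈ v.adicCompletionIntegers K :=
      (HeightOneSpectrum.mem_adicCompletionIntegers (𝓞 K) K v).2 (val_one_apply_le627 v i j)
    have h2 : WithZero.exp (-((0 : ℕ) : ℤ)) = (1 : WithZero (Multiplicative ℤ)) := by simp
    rw [h2, ← HeightOneSpectrum.mem_adicCompletionIntegers (𝓞 K) K v]
    constructor
    · intro h
      have := add_mem h h1
      simpa using this
    · intro h
      exact sub_mem h h1
  constructor
  · intro h
    refine ⟨fun i j => ?_, fun i j => ?_⟩
    · exact (key _ i j).1 (h i j).1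
    · have := (key _ i j).1 (h i j).2
      rw [finGL_inv_val627] at this
      exact this
  · intro h i j
    refine ⟨(key _ i j).2 (h.1 i j), ?_⟩
    rw [finGL_inv_val627]
    exact (key _ i j).2 (h.2 i j)

/-! ## 5. Compact boxes in `GL₂` -/

/-- Elements of `GL₂(A)` with all entries of `g`, `g⁻¹` in a compact set `B`: compact. -/
theorem isCompact_unitsBox627 {A : Type*} [CommRing A] [TopologicalSpace A] [IsTopologicalRing A]
    [T2Space A] (B : Set A) (hB : IsCompact B) :
    IsCompact {g : GL (Fin 2) A | ∀ i j, (g : Matrix (Fin 2) (Fin 2) A) i j ∈ B ∧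
      ((g⁻¹ : GL (Fin 2) A) : Matrix (Fin 2) (Fin 2) A) i j ∈ B} := by
  have : T2Space (Matrix (Fin 2) (Fin 2) A) :=
    Fermat.Agent.LT.H11.LC.t2Space_matrix_h11 (Fin 2) A
  have hM : IsCompact {M : Matrix (Fin 2) (Fin 2) A | ∀ i j, M i j ∈ B} := by
    have h : IsCompact (Set.pi Set.univ (fun _ : Fin 2 =>
        Set.pi Set.univ (fun _ : Fin 2 => B))) :=
      isCompact_univ_pi (fun _ => isCompact_univ_pi (fun _ => hB))
    have e : {M : Matrix (Fin 2) (Fin 2) A | ∀ i j, M i j ∈ B}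
        = Set.pi Set.univ (fun _ : Fin 2 => Set.pi Set.univ (fun _ : Fin 2 => B)) := by
      ext M
      constructor
      · intro hM i _ j _
        exact hM i j
      · intro hM i j
        exact hM i (Set.mem_univ i) j (Set.mem_univ j)
    rw [e]
    exact h
  have hop : IsCompact (MulOpposite.unop ⁻¹' {M : Matrix (Fin 2) (Fin 2) A | ∀ i j, M i j ∈ B} :
      Set (Matrix (Fin 2) (Fin 2) A)ᵐᵒᵖ) := by
    have := hM.image (MulOpposite.continuous_op)
    convert this using 1
    ext x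
    simp only [Set.mem_preimage, Set.mem_image]
    constructor
    · intro hx
      exact ⟨x.unop, hx, MulOpposite.op_unop x⟩
    · rintro ⟨y, hy, rfl⟩
      exact hy
  have hS : IsCompact ((Units.embedProduct (Matrix (Fin 2) (Fin 2) A)) ⁻¹'
      ({M : Matrix (Fin 2) (Fin 2) A | ∀ i j, M i j ∈ B} ×ˢ
        (MulOpposite.unop ⁻¹' {M : Matrix (Fin 2) (Fin 2) A | ∀ i j, M i j ∈ B}))) :=
    Units.isClosedEmbedding_embedProduct.isCompact_preimage (hM.prod hop)
  convert hS using 1
  ext g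
  constructor
  · intro hg
    exact ⟨fun i j => (hg i j).1, fun i j => (hg i j).2⟩
  · intro hg i j
    exact ⟨hg.1 i j, hg.2 i j⟩

/-- The compact neighbourhood `C` of `1` in `GL₂(ℂ)`. -/
def cBox627 : Set (GL (Fin 2) ℂ) :=
  {g | ∀ i j, (g : Matrix (Fin 2) (Fin 2) ℂ) i j ∈ Metric.closedBall (0 : ℂ) 2 ∧
      ((g⁻¹ : GL (Fin 2) ℂ) : Matrix (Fin 2) (Fin 2) ℂ) i j ∈ Metric.closedBall (0 : ℂ) 2}

/-- The open neighbourhood of `1` in `C`. -/
def cOpen627 : Set (GL (Fin 2) ℂ) :=
  {g | ∀ i j, (g : Matrix (Fin 2) (Fin 2) ℂ) i j ∈ Metric.ball (0 : ℂ) 2 ∧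
      ((g⁻¹ : GL (Fin 2) ℂ) : Matrix (Fin 2) (Fin 2) ℂ) i j ∈ Metric.ball (0 : ℂ) 2}

theorem isCompact_cBox627 : IsCompact cBox627 :=
  isCompact_unitsBox627 (Metric.closedBall (0 : ℂ) 2) (isCompact_closedBall 0 2)

theorem isOpen_cOpen627 : IsOpen cOpen627 := by
  have e : cOpen627 = ⋂ i : Fin 2, ⋂ j : Fin 2,
      ((fun g : GL (Fin 2) ℂ => (g : Matrix (Fin 2) (Fin 2) ℂ) i j) ⁻¹' Metric.ball (0 : ℂ) 2) ∩
      ((fun g : GL (Fin 2) ℂ => ((g⁻¹ : GL (Fin 2) ℂ) : Matrix (Fin 2) (Fin 2) ℂ) i j) ⁻¹'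
        Metric.ball (0 : ℂ) 2) := by
    ext g
    simp only [Set.mem_iInter, Set.mem_inter_iff, Set.mem_preimage]
    rfl
  rw [e]
  refine isOpen_iInter_of_finite fun i => isOpen_iInter_of_finite fun j => IsOpen.inter ?_ ?_
  · exact Metric.isOpen_ball.preimage (Units.continuous_val.matrix_elem i j)
  · exact Metric.isOpen_ball.preimage (Units.continuous_coe_inv.matrix_elem i j)

theorem one_mem_cOpen627 : (1 : GL (Fin 2) ℂ) ∈ cOpen627 := by
  intro i j
  have h : ∀ i j : Fin 2, ‖(1 : Matrix (Fin 2) (Fin 2) ℂ) i j‖ < 2 := by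
    intro i j
    rw [Matrix.one_apply]
    split_ifs <;> simp
  simp only [inv_one, Units.val_one, Metric.mem_ball, dist_zero_right]
  exact ⟨h i j, h i j⟩

theorem cOpen_subset_cBox627 : cOpen627 ⊆ cBox627 := fun g hg i j =>
  ⟨Metric.ball_subset_closedBall (hg i j).1, Metric.ball_subset_closedBall (hg i j).2⟩

/-- The compact box of `GL₂(𝔸_K)`. -/
def aBox627 (K : Type) [Field K] [NumberField K] : Set (G K) :=
  {g | ∀ i j, (g : Matrix (Fin 2) (Fin 2) (Adl K)) i j ∈ box919 K 2 ∧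
      ((g⁻¹ : G K) : Matrix (Fin 2) (Fin 2) (Adl K)) i j ∈ box919 K 2}

theorem isCompact_aBox627 : IsCompact (aBox627 K) := by
  have : T2Space (Adl K) := Fermat.Agent.LT.H11.LC.t2Space_adeleRing_h11 K
  exact isCompact_unitsBox627 (box919 K 2) (isCompact_box919 2)

/-! ## 6. `Out_S` is open; the reference sets -/

theorem isOpen_wS627 (S : Finset (HeightOneSpectrum (𝓞 K))) :
    IsOpen {x : Adl K | ∀ v : HeightOneSpectrum (𝓞 K), v ∉ S →
      x.2 v ∈ v.adicCompletionIntegers K} := by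
  have h := RestrictedProduct.isOpen_forall_imp_mem
    (R := fun v : HeightOneSpectrum (𝓞 K) => v.adicCompletion K)
    (A := fun v : HeightOneSpectrum (𝓞 K) =>
      (v.adicCompletionIntegers K : Set (v.adicCompletion K)))
    (fun v => Valued.isOpen_valuationSubring (v.adicCompletion K))
    (p := fun v => v ∉ S)
  exact h.preimage continuous_snd

theorem isOpen_out627 (S : Finset (HeightOneSpectrum (𝓞 K))) :
    IsOpen {y : G K | OutT305 S y} := by
  have e : {y : G K | OutT305 S y}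
      = ⋂ i : Fin 2, ⋂ j : Fin 2,
        ((fun g : G K => (g : Matrix (Fin 2) (Fin 2) (Adl K)) i j) ⁻¹'
          {x : Adl K | ∀ v : HeightOneSpectrum (𝓞 K), v ∉ S →
            x.2 v ∈ v.adicCompletionIntegers K}) ∩
        ((fun g : G K => ((g⁻¹ : G K) : Matrix (Fin 2) (Fin 2) (Adl K)) i j) ⁻¹'
          {x : Adl K | ∀ v : HeightOneSpectrum (𝓞 K), v ∉ S →
            x.2 v ∈ v.adicCompletionIntegers K}) := by
    ext y
    simp only [Set.mem_iInter, Set.mem_inter_iff, Set.mem_preimage, Set.mem_setOf_eq]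
    constructor
    · intro h i j
      exact ⟨fun v hv => (h v hv).1 i j, fun v hv => (h v hv).2 i j⟩
    · intro h v hv
      exact ⟨fun i j => (h i j).1 v hv, fun i j => (h i j).2 v hv⟩
  rw [e]
  refine isOpen_iInter_of_finite fun i => isOpen_iInter_of_finite fun j => IsOpen.inter ?_ ?_
  · exact (isOpen_wS627 S).preimage (Units.continuous_val.matrix_elem i j)
  · exact (isOpen_wS627 S).preimage (Units.continuous_coe_inv.matrix_elem i j)

theorem inU_mono627 (v : HeightOneSpectrum (𝓞 K)) (n : ℕ)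
    {g : GL (Fin 2) (v.adicCompletion K)} (h : T6.InU n g) : T6.InU 0 g := by
  have hle : WithZero.exp (-(n : ℤ)) ≤ (WithZero.exp (-((0 : ℕ) : ℤ)) : WithZero (Multiplicative ℤ)) := by
    rw [WithZero.exp_le_exp]
    simp
  intro i j
  exact ⟨(h i j).1.trans hle, (h i j).2.trans hle⟩

/-- The reference set of `GL₂(𝔸_K)` (closed at the infinite places). -/
def pSet627 (m : HeightOneSpectrum (𝓞 K) → ℕ) : Set (G K) :=
  {y | (∀ v : HeightOneSpectrum (𝓞 K), T6.InU (m v) (finGL305 v y)) ∧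
    ∀ w : InfinitePlace K, infGL305 w y ∈ cBox627}

/-- The reference set of `GL₂(𝔸_K)` (open at the infinite places). -/
def vSet627 (m : HeightOneSpectrum (𝓞 K) → ℕ) : Set (G K) :=
  {y | (∀ v : HeightOneSpectrum (𝓞 K), T6.InU (m v) (finGL305 v y)) ∧
    ∀ w : InfinitePlace K, infGL305 w y ∈ cOpen627}

theorem vSet_subset_pSet627 (m : HeightOneSpectrum (𝓞 K) → ℕ) : vSet627 m ⊆ pSet627 m :=
  fun _ hy => ⟨hy.1, fun w => cOpen_subset_cBox627 (hy.2 w)⟩

theorem one_mem_vSet627 (m : HeightOneSpectrum (𝓞 K) → ℕ) : (1 : G K) ∈ vSet627 m := by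
  refine ⟨fun v => ?_, fun w => ?_⟩
  · rw [map_one]
    exact one_mem_inU627 v (m v)
  · rw [map_one]
    exact one_mem_cOpen627

theorem isOpen_vSet627 (T₀ : Finset (HeightOneSpectrum (𝓞 K)))
    (m : HeightOneSpectrum (𝓞 K) → ℕ) (hm : ∀ v, v ∉ T₀ → m v = 0) :
    IsOpen (vSet627 m) := by
  have e : vSet627 m = {y : G K | OutT305 T₀ y} ∩
      (⋂ v ∈ T₀, (fun y : G K => finGL305 v y) ⁻¹' {g | T6.InU (m v) g}) ∩
      ⋂ w : InfinitePlace K, (fun y : G K => infGL305 w y) ⁻¹' cOpen627 := by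
    ext y
    simp only [vSet627, Set.mem_inter_iff, Set.mem_iInter, Set.mem_preimage, Set.mem_setOf_eq]
    constructor
    · rintro ⟨h1, h2⟩
      refine ⟨⟨fun v hv => ?_, fun v _ => h1 v⟩, h2⟩
      have := h1 v
      rw [hm v hv] at this
      exact (inU_zero_iff627 v y).1 this
    · rintro ⟨⟨h1, h2⟩, h3⟩
      refine ⟨fun v => ?_, h3⟩
      by_cases hv : v ∈ T₀
      · exact h2 v hv
      · rw [hm v hv]
        exact (inU_zero_iff627 v y).2 (h1 v hv)
  rw [e]
  refine IsOpen.inter (IsOpen.inter (isOpen_out627 T₀) ?_) ?_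
  · exact isOpen_biInter_finset fun v _ => (isOpen_inU627 v (m v)).preimage (continuous_finGL627 v)
  · exact isOpen_iInter_of_finite fun w => isOpen_cOpen627.preimage (continuous_infGL627 w)

theorem pSet_subset_aBox627 (m : HeightOneSpectrum (𝓞 K) → ℕ) : pSet627 m ⊆ aBox627 K := by
  intro y hy i j
  have hint : ∀ v : HeightOneSpectrum (𝓞 K), IsIntegralAt v y ∧ IsIntegralAt v y⁻¹ :=
    fun v => (inU_zero_iff627 v y).1 (inU_mono627 v (m v) (hy.1 v))
  refine ⟨⟨fun w => ?_, fun v => (hint v).1 i j⟩, ⟨fun w => ?_, fun v => (hint v).2 i j⟩⟩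
  · have h := (hy.2 w i j).1
    rw [infGL_val627, Metric.mem_closedBall, dist_zero_right] at h
    rw [← Fermat.Agent.LT.T1.H793.norm_extensionEmbedding793]
    exact h
  · have h := (hy.2 w i j).2
    rw [infGL_inv_val627, Metric.mem_closedBall, dist_zero_right] at h
    rw [← Fermat.Agent.LT.T1.H793.norm_extensionEmbedding793]
    exact h

/-- The reference set of the target. -/
def eSet627 (S : Finset (HeightOneSpectrum (𝓞 K))) (m : HeightOneSpectrum (𝓞 K) → ℕ) :
    Set ((∀ v : S, GL (Fin 2) ((v : HeightOneSpectrum (𝓞 K)).adicCompletion K)) ×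
      (InfinitePlace K → GL (Fin 2) ℂ)) :=
  (Set.pi Set.univ fun v : S => {g | T6.InU (m v.1) g}) ×ˢ
    (Set.pi Set.univ fun _ : InfinitePlace K => cBox627)

theorem out_inter_preimage627 (T₀ S : Finset (HeightOneSpectrum (𝓞 K))) (hS : T₀ ⊆ S)
    (m : HeightOneSpectrum (𝓞 K) → ℕ) (hm : ∀ v, v ∉ T₀ → m v = 0) :
    ((outSub627 S : Subgroup (G K)) : Set (G K)) ∩ compS305 S ⁻¹' eSet627 S m = pSet627 m := by
  ext y
  simp only [coe_outSub627, eSet627, compS305, pSet627, Set.mem_inter_iff, Set.mem_preimage,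
    Set.mem_prod, Set.mem_pi, Set.mem_univ, forall_true_left, Set.mem_setOf_eq]
  constructor
  · rintro ⟨h1, h2, h3⟩
    refine ⟨fun v => ?_, h3⟩
    by_cases hv : v ∈ S
    · exact h2 ⟨v, hv⟩
    · rw [hm v (fun h => hv (hS h))]
      exact (inU_zero_iff627 v y).2 (h1 v hv)
  · rintro ⟨h1, h2⟩
    refine ⟨fun v hv => ?_, fun v => h1 v.1, h2⟩
    have := h1 v
    rw [hm v (fun h => hv (hS h))] at this
    exact (inU_zero_iff627 v y).1 this

/-! ## 7. The leaf -/

/-- **LEAF C2.7.4 `HaarSplitC305`, UNCONDITIONAL.** -/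
theorem haarSplitC627 (K : Type) [Field K] [NumberField K] : HaarSplitC305 K := by
  intro hK μ hμ μc hμc T₀ m hm
  classical
  -- the adelic group
  haveI : BorelSpace (G K) := ⟨rfl⟩
  haveI : T2Space (G K) := Fermat.Agent.LT.H11.LC.t2Space_GL2_adeleRing_h11 K
  -- `GL₂(ℂ)`
  letI iC : MeasurableSpace (GL (Fin 2) ℂ) := borel _
  haveI : BorelSpace (GL (Fin 2) ℂ) := ⟨rfl⟩
  haveI : μc.IsHaarMeasure := hμc
  haveI : T2Space (Matrix (Fin 2) (Fin 2) ℂ) :=
    Fermat.Agent.LT.H11.LC.t2Space_matrix_h11 (Fin 2) ℂ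
  haveI : LocallyCompactSpace (Matrix (Fin 2) (Fin 2) ℂ) :=
    Fermat.Agent.LT.H11.LC.locallyCompactSpace_matrix_h11 (Fin 2) ℂ
  haveI : LocallyCompactSpace (GL (Fin 2) ℂ) := inferInstance
  haveI : SecondCountableTopology (Matrix (Fin 2) (Fin 2) ℂ) :=
    Fermat.Agent.LT.H11.SC.secondCountableTopology_matrix_h11 (Fin 2) ℂ
  haveI : SecondCountableTopology (GL (Fin 2) ℂ) :=
    Fermat.Agent.LT.H11.SC.secondCountableTopology_units_h11 _
  -- the reference volumes
  have hb0 : μc cBox627 ≠ 0 :=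
    ((isOpen_cOpen627.measure_pos μc ⟨1, one_mem_cOpen627⟩).trans_le
      (measure_mono cOpen_subset_cBox627)).ne'
  have hbtop : μc cBox627 ≠ ∞ := isCompact_cBox627.measure_lt_top.ne
  have hp0 : μ (pSet627 m) ≠ 0 :=
    (((isOpen_vSet627 T₀ m hm).measure_pos μ ⟨1, one_mem_vSet627 m⟩).trans_le
      (measure_mono (vSet_subset_pSet627 m))).ne'
  have hptop : μ (pSet627 m) ≠ ∞ :=
    ((measure_mono (pSet_subset_aBox627 m)).trans_lt isCompact_aBox627.measure_lt_top).ne
  set n : ℕ := Fintype.card (InfinitePlace K) with hn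
  have hbpos : 0 < (μc cBox627).toReal ^ n := pow_pos (ENNReal.toReal_pos hb0 hbtop) n
  refine ⟨(μ (pSet627 m)).toReal / (μc cBox627).toReal ^ n,
    div_pos (ENNReal.toReal_pos hp0 hptop) hbpos, ?_⟩
  intro S hS μv hμv
  -- the local groups
  letI iV : ∀ v : HeightOneSpectrum (𝓞 K), MeasurableSpace (GL (Fin 2) (v.adicCompletion K)) :=
    fun _ => borel _
  haveI : ∀ v : HeightOneSpectrum (𝓞 K), BorelSpace (GL (Fin 2) (v.adicCompletion K)) :=
    fun _ => ⟨rfl⟩
  haveI : ∀ v : HeightOneSpectrum (𝓞 K), (μv v).IsHaarMeasure := fun v => (hμv v).1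
  haveI : ∀ v : HeightOneSpectrum (𝓞 K), LocallyCompactSpace (GL (Fin 2) (v.adicCompletion K)) :=
    fun v => Fermat.Agent.LT.H11.LC.locallyCompactSpace_GL2_adicCompletion_h11 K v
  haveI : ∀ v : HeightOneSpectrum (𝓞 K),
      SecondCountableTopology (GL (Fin 2) (v.adicCompletion K)) := fun v => by
    haveI := Fermat.Agent.LT.H11.SC.secondCountableTopology_adicCompletion_h11 K v
    haveI := Fermat.Agent.LT.H11.SC.secondCountableTopology_matrix_h11 (Fin 2)
      (v.adicCompletion K)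
    exact Fermat.Agent.LT.H11.SC.secondCountableTopology_units_h11 _
  -- the product measure
  set ν : Measure ((∀ v : S, GL (Fin 2) ((v : HeightOneSpectrum (𝓞 K)).adicCompletion K)) ×
      (InfinitePlace K → GL (Fin 2) ℂ)) :=
    (Measure.pi fun v : S => μv v.1).prod (Measure.pi fun _ : InfinitePlace K => μc) with hν
  haveI hνH : ν.IsHaarMeasure := by
    rw [hν]
    haveI h1 : ∀ v : S, SigmaFinite (μv v.1) := fun v => inferInstance
    haveI h2 : SigmaFinite μc := inferInstance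
    haveI h3 : ∀ v : S, MeasurableMul (GL (Fin 2) ((v : HeightOneSpectrum (𝓞 K)).adicCompletion K)) :=
      fun v => inferInstance
    haveI h4 : MeasurableMul (GL (Fin 2) ℂ) := inferInstance
    haveI h5 : (Measure.pi fun v : S => μv v.1).IsHaarMeasure := inferInstance
    haveI h6 : (Measure.pi fun _ : InfinitePlace K => μc).IsHaarMeasure := inferInstance
    haveI h7 : SigmaFinite (Measure.pi fun v : S => μv v.1) := inferInstance
    haveI h8 : SigmaFinite (Measure.pi fun _ : InfinitePlace K => μc) := inferInstance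
    haveI h9 : MeasurableMul (∀ v : S, GL (Fin 2) ((v : HeightOneSpectrum (𝓞 K)).adicCompletion K)) :=
      inferInstance
    haveI h10 : MeasurableMul (InfinitePlace K → GL (Fin 2) ℂ) := inferInstance
    infer_instance
  have hνE : ν (eSet627 S m) = (μc cBox627) ^ n := by
    rw [hν, eSet627, Measure.prod_prod, Measure.pi_pi, Measure.pi_pi]
    have h1 : ∀ v : S, μv v.1 {g | T6.InU (m v.1) g} = 1 := fun v => (hμv v.1).2
    simp only [h1, Finset.prod_const_one, one_mul, Finset.prod_const, Finset.card_univ, hn]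
  have hEmeas : MeasurableSet (eSet627 S m) := by
    refine MeasurableSet.prod (MeasurableSet.univ_pi fun v => ?_) (MeasurableSet.univ_pi fun w => ?_)
    · exact (isOpen_inU627 v.1 (m v.1)).measurableSet
    · exact isCompact_cBox627.isClosed.measurableSet
  have hEint : (interior (eSet627 S m)).Nonempty := by
    refine ⟨1, mem_interior.2 ⟨(Set.pi Set.univ fun v : S => {g | T6.InU (m v.1) g}) ×ˢ
      (Set.pi Set.univ fun _ : InfinitePlace K => cOpen627), ?_, ?_, ?_⟩⟩
    · exact Set.prod_mono (le_refl _) (Set.pi_mono fun w _ => cOpen_subset_cBox627)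
    · exact (isOpen_set_pi Set.finite_univ fun v _ => isOpen_inU627 v.1 (m v.1)).prod
        (isOpen_set_pi Set.finite_univ fun w _ => isOpen_cOpen627)
    · exact ⟨fun v _ => one_mem_inU627 v.1 (m v.1), fun w _ => one_mem_cOpen627⟩
  have hpre := out_inter_preimage627 T₀ S hS m hm
  have key := map_restrict_eq_smul627 μ (outSub627 S) (isClosed_out627 S).measurableSet
    (compS305 S) (continuous_compS627 S).measurable (compS_mul627 S) (compS_surj627 hK S) ν
    (eSet627 S m) hEmeas hEint (by rw [hpre]; exact hptop)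
    (by rw [hνE]; exact pow_ne_zero n hb0) (by rw [hνE]; exact ENNReal.pow_ne_top hbtop)
  rw [hpre, hνE, coe_outSub627] at key
  rw [key]
  congr 1
  rw [ENNReal.ofReal_div_of_pos hbpos, ENNReal.ofReal_toReal hptop,
    ENNReal.ofReal_pow ENNReal.toReal_nonneg, ENNReal.ofReal_toReal hbtop]

end Fermat.Agent.LT.T7.H627
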