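import Mathlib
import Fermat.Agent.LT.T7.H893.SupplyProdSpec
import Fermat.Agent.LT.T7.H627.HaarSplit

/-!
# Row LT, tower T7, node ProdMtCb (sixth cut of helper893): the leaves `LevelUniqC893`,
# `LevelAtC893` (helper627, spare)

OFF-MAIN.  `levelUniqC627 F : H893.LevelUniqC893 F`, `levelAtC627 K K' : H893.LevelAtC893 K K'`,
UNCONDITIONAL.
-/

set_option autoImplicit false
set_option linter.unusedSectionVars false
set_option linter.unusedVariables false

open AutomorphicForm IsDedekindDomain NumberField MeasureTheory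

noncomputable section

namespace Fermat.Agent.LT.T7.H627

open Fermat.Agent.LT.H556 Fermat.Agent.LT.H556.A0 Fermat.Agent.LT.T7 Fermat.Agent.LT.T7.H305
open Fermat.Agent.LT.T7.H893

/-- **LEAF `LevelUniqC893`.** -/
theorem levelUniqC627 (F : Type) [Field F] [NumberField F] : LevelUniqC893 F := by
  intro 𝔫 m m' h h'
  funext v
  have key : ∀ a b : ℕ, (∀ x : v.adicCompletion F,
      Valued.v x ≤ WithZero.exp (-(a : ℤ)) → Valued.v x ≤ WithZero.exp (-(b : ℤ))) → b ≤ a := by
    intro a b hab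
    obtain ⟨y, hy⟩ := exists_val_eq_exp627 v a
    have := hab y hy.le
    rw [hy, WithZero.exp_le_exp] at this
    omega
  refine le_antisymm ?_ ?_
  · exact key (m' v) (m v) fun x hx => (h v x).1 ((h' v x).2 hx)
  · exact key (m v) (m' v) fun x hx => (h' v x).1 ((h v x).2 hx)

/-- An ideal not divisible by `v` has exponent `0` at `v`. -/
theorem level_zero_of_notMem627 {F : Type} [Field F] [NumberField F] (𝔫 : Ideal (𝓞 F))
    (m : HeightOneSpectrum (𝓞 F) → ℕ) (h : IsLevelOf893 𝔫 m) (v : HeightOneSpectrum (𝓞 F))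
    (a : 𝓞 F) (ha : a ∈ 𝔫) (hav : a ∉ v.asIdeal) : m v = 0 := by
  have h1 : algebraMap F (v.adicCompletion F) (algebraMap (𝓞 F) F a) ∈ idealClosure 𝔫 v :=
    subset_closure ⟨a, ha, rfl⟩
  have h2 := (h v _).1 h1
  have h3 : Valued.v (algebraMap F (v.adicCompletion F) (algebraMap (𝓞 F) F a)) = 1 := by
    have e : algebraMap F (v.adicCompletion F) (algebraMap (𝓞 F) F a)
        = ((algebraMap (𝓞 F) F a : F) : v.adicCompletion F) := rfl
    rw [e, HeightOneSpectrum.valuedAdicCompletion_eq_valuation']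
    exact (HeightOneSpectrum.valuation_eq_one_iff_notMem (K := F) v).2 hav
  rw [h3] at h2
  have h4 : (WithZero.exp (0 : ℤ) : WithZero (Multiplicative ℤ)) ≤ WithZero.exp (-(m v : ℤ)) := by
    simpa using h2
  rw [WithZero.exp_le_exp] at h4
  omega

/-- **LEAF `LevelAtC893`.** -/
theorem levelAtC627 (K K' : Type) [Field K] [NumberField K] [Field K'] [NumberField K']
    [Algebra K K'] : LevelAtC893 K K' := by
  intro 𝔫 T₀ n m hT hm hn
  have hex : ∀ v : HeightOneSpectrum (𝓞 K), v ∉ T₀ → ∃ a : 𝓞 K, a ∈ 𝔫 ∧ a ∉ v.asIdeal := by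
    intro v hv
    have h1 : ¬ v.asIdeal ∣ 𝔫 := fun h => hv ((hT v).2 h)
    rw [Ideal.dvd_iff_le] at h1
    exact Set.not_subset.1 h1
  refine ⟨fun v hv => ?_, fun v w hv hw => ?_⟩
  · obtain ⟨a, ha, hav⟩ := hex v hv
    exact level_zero_of_notMem627 𝔫 m hm v a ha hav
  · obtain ⟨a, ha, hav⟩ := hex v hv
    refine level_zero_of_notMem627 (upI (K' := K') 𝔫) n hn w (algebraMap (𝓞 K) (𝓞 K') a)
      (Ideal.mem_map_of_mem _ ha) ?_
    intro hmem
    exact hav ((hw a (algebraMap (𝓞 K) (𝓞 K') a) rfl).2 hmem)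

end Fermat.Agent.LT.T7.H627
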