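import Mathlib
import Fermat.Agent.LT.T7.P51.ConvAvgSpec
import Fermat.Agent.LT.T7.H878.ConvPure
import Fermat.Agent.LT.T7.H724.ConvAvg
import Fermat.Agent.LT.T7.H872.ConvTest
import Fermat.Agent.LT.T7.H82.PureExt
import Fermat.Agent.LT.T6.H944.OrbSumUniq

/-!
# Row LT, tower T7, NODE T7.L2.1.H2b.G2.1 `P51.ConvFamC51 F` (registry row 2932) -- CLOSED

OFF-MAIN (helper627, spare).  Complete proof, nothing assumed.

    convFamC627 (F) : P51.ConvFamC51 F      VERBATIM vs `T7/P51/ConvAvgSpec.lean` (helper51)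

Assembly of closed leaves:
* `H878.convPureC878` (PT.1, helper878): convolution of two pure tensors over the SAME set of
  places `T ⊇ T₀` = `c` times the pure tensor of the local convolutions;
* `H82.pureExtC82` (helper82): a pure tensor does not change if `T` is enlarged and the new
  components are the unit elements (`ext51 = ext305`);
* `H724.convAvgC724` (PT.3, helper724): convolution of two averages = average of the
  convolutions, joint continuity, common compact support;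
* `H872.isTestFn_conv872` (helper872): the convolution of two test functions is a test
  function; scalar multiples of test functions are test functions (`isTestFn_smul627`);
* the unit `1_{U(n)}` is bi-invariant and supported on one coset (`unitFn_reg627`).
-/

set_option autoImplicit false

open AutomorphicForm IsDedekindDomain NumberField MeasureTheory
open scoped ComplexConjugate

noncomputable section

namespace Fermat.Agent.LT.T7.H627

open Fermat.Agent.LT.H556 Fermat.Agent.LT.H556.A0 Fermat.Agent.LT.T7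
open Fermat.Agent.LT.T7.H305 Fermat.Agent.LT.T7.H893

attribute [local instance] Fermat.Agent.LT.T5.instMeasurableSpaceG

/-- A scalar multiple of a test function is a test function. -/
theorem isTestFn_smul627 {K : Type} [Field K] [NumberField K] {𝔫 : Ideal (𝓞 K)}
    {τ φ : G K → ℂ} (c : ℂ) (h : T5.IsTestFn 𝔫 τ φ) :
    T5.IsTestFn 𝔫 τ (fun g => c * φ g) where
  ktype := h.ktype
  cont := continuous_const.mul h.cont
  supp := h.supp.mul_left (f := fun _ => c)
  smooth := fun n hh h1 h2 g => contDiff_const.mul (h.smooth n hh h1 h2 g)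
  inv :=
    { level_right := fun u hu g => by
        show c * φ (g * u) = c * φ g
        rw [h.inv.level_right u hu g]
      level_left := fun u hu g => by
        show c * φ (u * g) = c * φ g
        rw [h.inv.level_left u hu g]
      arch_right := fun w k hk g => by
        show c * φ (g * k) = (τ k)⁻¹ * (c * φ g)
        rw [h.inv.arch_right w k hk g]
        ring
      arch_left := fun w k hk g => by
        show c * φ (k * g) = (τ k)⁻¹ * (c * φ g)
        rw [h.inv.arch_left w k hk g]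
        ring }

section Local

variable {k : Type} [Field k] [Valued k T6.Γ₀]

/-- `1_{U(n)}` is bi-invariant under `U(n)` and supported on one coset. -/
theorem unitFn_reg627 (n : ℕ) :
    T6.IsBiInv (T6.InU n) (unitFn893 (k := k) n) ∧
      T6.HasFinSupp (T6.InU n) (unitFn893 (k := k) n) := by
  classical
  refine ⟨?_, ?_⟩
  · intro u u' g hu hu'
    have hiff : T6.InU n (u * g * u') ↔ T6.InU n g := by
      constructor
      · intro h
        have h1 := T6.H944.inU_mul944 n _ _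
          (T6.H944.inU_mul944 n _ _ (T6.H944.inU_inv944 n u hu) h)
          (T6.H944.inU_inv944 n u' hu')
        have e : u⁻¹ * (u * g * u') * u'⁻¹ = g := by group
        rwa [e] at h1
      · intro h
        exact T6.H944.inU_mul944 n _ _ (T6.H944.inU_mul944 n _ _ hu h) hu'
    delta unitFn893
    by_cases hg : T6.InU n g
    · rw [if_pos (hiff.2 hg), if_pos hg]
    · rw [if_neg (fun h => hg (hiff.1 h)), if_neg hg]
  · refine ⟨{1}, fun g hg => ?_⟩
    refine ⟨1, Finset.mem_singleton_self _, g, ?_, (one_mul g).symm⟩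
    by_contra hU
    apply hg
    delta unitFn893
    rw [if_neg hU]

end Local

section OneField

variable {F : Type} [Field F] [NumberField F]

/-- The two extensions by the unit agree. -/
theorem ext51_eq627 (T : Finset (HeightOneSpectrum (𝓞 F)))
    (φ : ∀ w : HeightOneSpectrum (𝓞 F), GL (Fin 2) (w.adicCompletion F) → ℂ) :
    P51.ext51 T φ = ext305 T φ := by
  classical
  funext w
  delta P51.ext51 ext305
  by_cases hw : w ∈ T
  · rw [if_pos hw, if_pos hw]
  · rw [if_neg hw, if_neg hw]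
    funext g
    delta unitFn893 unit305
    by_cases hg : T6.InU 0 g
    · rw [if_pos hg]
    · rw [if_neg hg]

/-- The pure tensor over a larger set with the extended components. -/
theorem pure_ext627 (T S : Finset (HeightOneSpectrum (𝓞 F))) (hTS : T ⊆ S)
    (φ : ∀ w : HeightOneSpectrum (𝓞 F), GL (Fin 2) (w.adicCompletion F) → ℂ)
    (Φ : InfinitePlace F → GL (Fin 2) ℂ → ℂ) :
    pure305 T φ Φ = pure305 S (P51.ext51 T φ) Φ := by
  funext h
  rw [ext51_eq627]
  exact (H82.pureExtC82 (K := F) T S hTS φ Φ h).symm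

/-- The extended components are regular at EVERY place. -/
theorem ext51_reg627 (lv : HeightOneSpectrum (𝓞 F) → ℕ)
    (T₀ T : Finset (HeightOneSpectrum (𝓞 F)))
    (hlv : ∀ v : HeightOneSpectrum (𝓞 F), v ∉ T₀ → lv v = 0) (hsub : T₀ ⊆ T)
    (φ : ∀ w : HeightOneSpectrum (𝓞 F), GL (Fin 2) (w.adicCompletion F) → ℂ)
    (hreg : ∀ w : HeightOneSpectrum (𝓞 F), w ∈ T →
      T6.IsBiInv (T6.InU (lv w)) (φ w) ∧ T6.HasFinSupp (T6.InU (lv w)) (φ w))
    (v : HeightOneSpectrum (𝓞 F)) :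
    T6.IsBiInv (T6.InU (lv v)) (P51.ext51 T φ v) ∧
      T6.HasFinSupp (T6.InU (lv v)) (P51.ext51 T φ v) := by
  classical
  by_cases hv : v ∈ T
  · have e : P51.ext51 T φ v = φ v := by
      delta P51.ext51
      rw [if_pos hv]
    rw [e]
    exact hreg v hv
  · have e : P51.ext51 T φ v = unitFn893 0 := by
      delta P51.ext51
      rw [if_neg hv]
    have h0 : lv v = 0 := hlv v fun h => hv (hsub h)
    rw [e, h0]
    exact unitFn_reg627 0

variable (F)

/-- **NODE P.G2.1 `ConvFamC51 F`**, VERBATIM and UNCONDITIONAL. -/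
theorem convFamC627 : P51.ConvFamC51 F := by
  intro hTC μ hμ μc hμc T₀ lv hlv 𝔫 h𝔫
  obtain ⟨c, hc, hconv⟩ := H878.convPureC878 F hTC μ hμ μc hμc T₀ lv hlv
  have hcC : (c : ℂ) ≠ 0 := Complex.ofReal_ne_zero.2 hc.ne'
  refine ⟨⟨c, hc.le⟩, fun h => hc.ne' (congrArg NNReal.toReal h), ?_⟩
  intro Ω₁ _ _ _ _ _ _ ν₁ _ Ω₂ _ _ _ _ _ _ ν₂ _ T₁ φ₁ Φ₁ T₂ φ₂ Φ₂ χ h1 h2 hχ
  classical
  have key : ∀ (p : Ω₁ × Ω₂) (h : G F),
      T5.conv μ (pure305 (T₁ p.1) (φ₁ p.1) (Φ₁ p.1)) (pure305 (T₂ p.2) (φ₂ p.2) (Φ₂ p.2)) h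
        = (c : ℂ) * pure305 (T₁ p.1 ∪ T₂ p.2) (χ p)
            (fun w => @T6.convInt _ _ (borel _) μc (Φ₁ p.1 w) (Φ₂ p.2 w)) h := by
    intro p h
    rw [pure_ext627 (T₁ p.1) (T₁ p.1 ∪ T₂ p.2) Finset.subset_union_left (φ₁ p.1) (Φ₁ p.1),
      pure_ext627 (T₂ p.2) (T₁ p.1 ∪ T₂ p.2) Finset.subset_union_right (φ₂ p.2) (Φ₂ p.2)]
    exact hconv (T₁ p.1 ∪ T₂ p.2) ((h1.sub p.1).trans Finset.subset_union_left)
      (P51.ext51 (T₁ p.1) (φ₁ p.1)) (P51.ext51 (T₂ p.2) (φ₂ p.2)) (χ p) (Φ₁ p.1) (Φ₂ p.2)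
      (fun v _ => ext51_reg627 lv T₀ (T₁ p.1) hlv (h1.sub p.1) (φ₁ p.1) (h1.reg p.1) v)
      (fun v _ => ext51_reg627 lv T₀ (T₂ p.2) hlv (h2.sub p.2) (φ₂ p.2) (h2.reg p.2) v)
      (hχ p) (h1.arch p.1) (h2.arch p.2) h
  have hRe : ∀ (p : Ω₁ × Ω₂) (h : G F),
      pure305 (T₁ p.1 ∪ T₂ p.2) (χ p)
          (fun w => @T6.convInt _ _ (borel _) μc (Φ₁ p.1 w) (Φ₂ p.2 w)) h
        = (c : ℂ)⁻¹ * T5.conv μ (pure305 (T₁ p.1) (φ₁ p.1) (Φ₁ p.1))
            (pure305 (T₂ p.2) (φ₂ p.2) (Φ₂ p.2)) h := by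
    intro p h
    rw [key p h, inv_mul_cancel_left₀ hcC]
  obtain ⟨hI, hcont, C, hC, hsupp⟩ :=
    H724.convAvgC724 F μ hμ Ω₁ inferInstance inferInstance inferInstance inferInstance
      inferInstance inferInstance ν₁ inferInstance Ω₂ inferInstance inferInstance inferInstance
      inferInstance inferInstance inferInstance ν₂ inferInstance
      (fun a => pure305 (T₁ a) (φ₁ a) (Φ₁ a)) (fun b => pure305 (T₂ b) (φ₂ b) (Φ₂ b))
      h1.cont h2.cont h1.supp h2.supp
  refine ⟨fun p => ?_, ?_, ⟨C, hC, fun p h hne => ?_⟩, fun h => ?_⟩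
  · have ht := isTestFn_smul627 (c : ℂ)⁻¹
      (H872.isTestFn_conv872 hμ h𝔫 (h1.test p.1) (h2.test p.2))
    have e : pure305 (T₁ p.1 ∪ T₂ p.2) (χ p)
          (fun w => @T6.convInt _ _ (borel _) μc (Φ₁ p.1 w) (Φ₂ p.2 w))
        = fun h => (c : ℂ)⁻¹ * T5.conv μ (pure305 (T₁ p.1) (φ₁ p.1) (Φ₁ p.1))
            (pure305 (T₂ p.2) (φ₂ p.2) (Φ₂ p.2)) h := funext (hRe p)
    rw [e]
    exact ht
  · have e : (fun q : (Ω₁ × Ω₂) × G F =>
          pure305 (T₁ q.1.1 ∪ T₂ q.1.2) (χ q.1)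
            (fun w => @T6.convInt _ _ (borel _) μc (Φ₁ q.1.1 w) (Φ₂ q.1.2 w)) q.2)
        = fun q : (Ω₁ × Ω₂) × G F =>
          (c : ℂ)⁻¹ * T5.conv μ (pure305 (T₁ q.1.1) (φ₁ q.1.1) (Φ₁ q.1.1))
            (pure305 (T₂ q.1.2) (φ₂ q.1.2) (Φ₂ q.1.2)) q.2 :=
      funext fun q => hRe q.1 q.2
    rw [e]
    exact continuous_const.mul hcont
  · refine hsupp p h fun h0 => hne ?_
    rw [hRe p h, h0, mul_zero]
  · rw [hI h]
    have hsm := integral_smul_nnreal_measure (μ := ν₁.prod ν₂)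
      (fun p : Ω₁ × Ω₂ => pure305 (T₁ p.1 ∪ T₂ p.2) (χ p)
        (fun w => @T6.convInt _ _ (borel _) μc (Φ₁ p.1 w) (Φ₂ p.2 w)) h) (⟨c, hc.le⟩ : NNReal)
    rw [hsm]
    have e : (fun x : Ω₁ × Ω₂ =>
          T5.conv μ (pure305 (T₁ x.1) (φ₁ x.1) (Φ₁ x.1))
            (pure305 (T₂ x.2) (φ₂ x.2) (Φ₂ x.2)) h)
        = fun x : Ω₁ × Ω₂ => (c : ℂ) * pure305 (T₁ x.1 ∪ T₂ x.2) (χ x)
            (fun w => @T6.convInt _ _ (borel _) μc (Φ₁ x.1 w) (Φ₂ x.2 w)) h :=
      funext fun x => key x h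
    rw [e, integral_const_mul]
    have hs : ∀ z : ℂ, (⟨c, hc.le⟩ : NNReal) • z = (c : ℂ) * z := fun z => by
      show ((⟨c, hc.le⟩ : NNReal) : ℝ) • z = _
      rw [Complex.real_smul]
    exact (hs _).symm

end OneField

end Fermat.Agent.LT.T7.H627

end
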