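import Mathlib
import Fermat.Agent.LT.T7.H563.ConvAvgQSpec
import Fermat.Agent.LT.T7.H878.ConvPureQ
import Fermat.Agent.LT.T7.H627.ConvFam

/-!
# Row LT, tower T7, NODE T7.L2Q.1.H2b.4.G2.1 `PQ563.ConvFamQC563` -- CLOSED

OFF-MAIN (helper627, spare).  Complete proof, nothing assumed.

    convFamQC627 : PQ563.ConvFamQC563       VERBATIM vs `T7/H563/ConvAvgQSpec.lean` (helper563)
    testSmulQC627 : PQ563.TestSmulQC563

Mirror over `ℚ` of `H627.convFamC627`: `H878.convPureQC878` (PT.2), `pureQ_ext627` (extension of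
a pure tensor over `ℚ` to a larger set of places), `H724.convAvgC724 ℚ` (PT.3),
`H872.isTestFn_conv872` (every type), `isTestFn_smul627`.
-/

set_option autoImplicit false

open AutomorphicForm IsDedekindDomain NumberField MeasureTheory
open scoped ComplexConjugate

noncomputable section

namespace Fermat.Agent.LT.T7.H627

open Fermat.Agent.LT.H556 Fermat.Agent.LT.H556.A0 Fermat.Agent.LT.T7
open Fermat.Agent.LT.T7.H305 Fermat.Agent.LT.T7.H893 Fermat.Agent.LT.T7.MQ298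

attribute [local instance] Fermat.Agent.LT.T5.instMeasurableSpaceG

/-- The pure tensor over `ℚ` over a larger set with the extended components. -/
theorem pureQ_ext627 (T S : Finset (HeightOneSpectrum (𝓞 ℚ))) (hTS : T ⊆ S)
    (f₀ : ∀ v : HeightOneSpectrum (𝓞 ℚ), GL (Fin 2) (v.adicCompletion ℚ) → ℂ)
    (Fr : GL (Fin 2) ℝ → ℂ) :
    pureQ298 T f₀ Fr = pureQ298 S (P51.ext51 T f₀) Fr := by
  classical
  funext h
  rw [ext51_eq627]
  symm
  delta pureQ298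
  by_cases hT : OutT305 T h
  · have hS : OutT305 S h := fun v hv => hT v fun hvT => hv (hTS hvT)
    rw [if_pos hT, if_pos hS]
    congr 1
    rw [← Finset.prod_sdiff hTS]
    have e1 : ∏ v ∈ S \ T, ext305 T f₀ v (finGL305 v h) = 1 := by
      refine Finset.prod_eq_one fun v hv => ?_
      have hvT : v ∉ T := (Finset.mem_sdiff.1 hv).2
      delta ext305
      rw [if_neg hvT]
      delta unit305
      rw [if_pos ((H82.inU_zero_iff82 v h).2 (hT v hvT))]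
    have e2 : ∏ v ∈ T, ext305 T f₀ v (finGL305 v h) = ∏ v ∈ T, f₀ v (finGL305 v h) := by
      refine Finset.prod_congr rfl fun v hv => ?_
      delta ext305
      rw [if_pos hv]
    rw [e1, e2, one_mul]
  · rw [if_neg hT]
    by_cases hS : OutT305 S h
    · rw [if_pos hS]
      obtain ⟨v, hvT, hv⟩ : ∃ v : HeightOneSpectrum (𝓞 ℚ), v ∉ T ∧
          ¬ (IsIntegralAt v h ∧ IsIntegralAt v h⁻¹) := by
        by_contra hcon
        apply hT
        intro v hv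
        by_contra hv'
        exact hcon ⟨v, hv, hv'⟩
      have hvS : v ∈ S := by
        by_contra hvS
        exact hv (hS v hvS)
      have e0 : ext305 T f₀ v (finGL305 v h) = 0 := by
        delta ext305
        rw [if_neg hvT]
        delta unit305
        rw [if_neg fun hU => hv ((H82.inU_zero_iff82 v h).1 hU)]
      rw [Finset.prod_eq_zero hvS e0, zero_mul]
    · rw [if_neg hS]

/-- **LEAF PS.G2.2 `TestSmulQC563`**, VERBATIM and UNCONDITIONAL. -/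
theorem testSmulQC627 : PQ563.TestSmulQC563 :=
  fun _ _ _ c h => isTestFn_smul627 c h

/-- **NODE PS.G2.1 `ConvFamQC563`**, VERBATIM and UNCONDITIONAL. -/
theorem convFamQC627 : PQ563.ConvFamQC563 := by
  intro μ hμ μr hμr T₀ lv hlv 𝔫 h𝔫
  obtain ⟨c, hc, hconv⟩ := H878.convPureQC878 μ hμ μr hμr T₀ lv hlv
  have hcC : (c : ℂ) ≠ 0 := Complex.ofReal_ne_zero.2 hc.ne'
  refine ⟨⟨c, hc.le⟩, fun h => hc.ne' (congrArg NNReal.toReal h), ?_⟩
  intro τ Ω₁ _ _ _ _ _ _ ν₁ _ Ω₂ _ _ _ _ _ _ ν₂ _ T₁ f₁ Fr₁ T₂ f₂ Fr₂ χ h1 h2 hχ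
  classical
  have key : ∀ (p : Ω₁ × Ω₂) (h : G ℚ),
      T5.conv μ (pureQ298 (T₁ p.1) (f₁ p.1) (Fr₁ p.1)) (pureQ298 (T₂ p.2) (f₂ p.2) (Fr₂ p.2)) h
        = (c : ℂ) * pureQ298 (T₁ p.1 ∪ T₂ p.2) (χ p)
            (@T6.convInt _ _ (borel _) μr (Fr₁ p.1) (Fr₂ p.2)) h := by
    intro p h
    rw [pureQ_ext627 (T₁ p.1) (T₁ p.1 ∪ T₂ p.2) Finset.subset_union_left (f₁ p.1) (Fr₁ p.1),
      pureQ_ext627 (T₂ p.2) (T₁ p.1 ∪ T₂ p.2) Finset.subset_union_right (f₂ p.2) (Fr₂ p.2)]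
    exact hconv (T₁ p.1 ∪ T₂ p.2) ((h1.sub p.1).trans Finset.subset_union_left)
      (P51.ext51 (T₁ p.1) (f₁ p.1)) (P51.ext51 (T₂ p.2) (f₂ p.2)) (χ p) (Fr₁ p.1) (Fr₂ p.2)
      (fun v _ => ext51_reg627 lv T₀ (T₁ p.1) hlv (h1.sub p.1) (f₁ p.1) (h1.reg p.1) v)
      (fun v _ => ext51_reg627 lv T₀ (T₂ p.2) hlv (h2.sub p.2) (f₂ p.2) (h2.reg p.2) v)
      (hχ p) (h1.arch p.1).1 (h1.arch p.1).2 (h2.arch p.2).1 (h2.arch p.2).2 h
  have hRe : ∀ (p : Ω₁ × Ω₂) (h : G ℚ),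
      pureQ298 (T₁ p.1 ∪ T₂ p.2) (χ p)
          (@T6.convInt _ _ (borel _) μr (Fr₁ p.1) (Fr₂ p.2)) h
        = (c : ℂ)⁻¹ * T5.conv μ (pureQ298 (T₁ p.1) (f₁ p.1) (Fr₁ p.1))
            (pureQ298 (T₂ p.2) (f₂ p.2) (Fr₂ p.2)) h := by
    intro p h
    rw [key p h, inv_mul_cancel_left₀ hcC]
  obtain ⟨hI, hcont, C, hC, hsupp⟩ :=
    H724.convAvgC724 ℚ μ hμ Ω₁ inferInstance inferInstance inferInstance inferInstance
      inferInstance inferInstance ν₁ inferInstance Ω₂ inferInstance inferInstance inferInstance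
      inferInstance inferInstance inferInstance ν₂ inferInstance
      (fun a => pureQ298 (T₁ a) (f₁ a) (Fr₁ a)) (fun b => pureQ298 (T₂ b) (f₂ b) (Fr₂ b))
      h1.cont h2.cont h1.supp h2.supp
  refine ⟨fun p => ?_, ?_, ⟨C, hC, fun p h hne => ?_⟩, fun h => ?_⟩
  · have ht := isTestFn_smul627 (c : ℂ)⁻¹
      (H872.isTestFn_conv872 hμ h𝔫 (h1.test p.1) (h2.test p.2))
    have e : pureQ298 (T₁ p.1 ∪ T₂ p.2) (χ p)
          (@T6.convInt _ _ (borel _) μr (Fr₁ p.1) (Fr₂ p.2))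
        = fun h => (c : ℂ)⁻¹ * T5.conv μ (pureQ298 (T₁ p.1) (f₁ p.1) (Fr₁ p.1))
            (pureQ298 (T₂ p.2) (f₂ p.2) (Fr₂ p.2)) h := funext (hRe p)
    rw [e]
    exact ht
  · have e : (fun q : (Ω₁ × Ω₂) × G ℚ =>
          pureQ298 (T₁ q.1.1 ∪ T₂ q.1.2) (χ q.1)
            (@T6.convInt _ _ (borel _) μr (Fr₁ q.1.1) (Fr₂ q.1.2)) q.2)
        = fun q : (Ω₁ × Ω₂) × G ℚ =>
          (c : ℂ)⁻¹ * T5.conv μ (pureQ298 (T₁ q.1.1) (f₁ q.1.1) (Fr₁ q.1.1))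
            (pureQ298 (T₂ q.1.2) (f₂ q.1.2) (Fr₂ q.1.2)) q.2 :=
      funext fun q => hRe q.1 q.2
    rw [e]
    exact continuous_const.mul hcont
  · refine hsupp p h fun h0 => hne ?_
    rw [hRe p h, h0, mul_zero]
  · rw [hI h]
    have hsm := integral_smul_nnreal_measure (μ := ν₁.prod ν₂)
      (fun p : Ω₁ × Ω₂ => pureQ298 (T₁ p.1 ∪ T₂ p.2) (χ p)
        (@T6.convInt _ _ (borel _) μr (Fr₁ p.1) (Fr₂ p.2)) h) (⟨c, hc.le⟩ : NNReal)
    rw [hsm]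
    have e : (fun x : Ω₁ × Ω₂ =>
          T5.conv μ (pureQ298 (T₁ x.1) (f₁ x.1) (Fr₁ x.1))
            (pureQ298 (T₂ x.2) (f₂ x.2) (Fr₂ x.2)) h)
        = fun x : Ω₁ × Ω₂ => (c : ℂ) * pureQ298 (T₁ x.1 ∪ T₂ x.2) (χ x)
            (@T6.convInt _ _ (borel _) μr (Fr₁ x.1) (Fr₂ x.2)) h :=
      funext fun x => key x h
    rw [e, integral_const_mul]
    have hs : ∀ z : ℂ, (⟨c, hc.le⟩ : NNReal) • z = (c : ℂ) * z := fun z => by
      show ((⟨c, hc.le⟩ : NNReal) : ℝ) • z = _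
      rw [Complex.real_smul]
    exact (hs _).symm

end Fermat.Agent.LT.T7.H627

end
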